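import Fermat.Agent.S19.B.Kummer

/-!
# S19 / B3b : non-degeneracy of `e_{ℓ^k}`

`x ≠ 0` of exact order `ℓ^i`, `1 ≤ i ≤ k`.  `x' = ℓ^(i-1) x` has order `ℓ`; take `y'` with
`ℓ y' = 0`, `e_ℓ(x', y') ≠ 1`; `e_{ℓ^i}(x, y') = e_ℓ(ℓ^(i-1) x, y')` (`weil_mul_left`);
take `y` with `ℓ^(k-i) y = y'` (divisibility); `e_{ℓ^k}(x, y) = e_{ℓ^i}(x, ℓ^(k-i) y)`
(`weil_mul_right`).
-/

set_option autoImplicit false

open AlgebraicCurve

namespace Fermat.Agent.S19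

open Fermat.Agent.S27

universe u v

variable {K : Type u} {F : Type v} [Field K] [Field F] [Algebra K F] [IsAlgClosed K] [CharZero K]
  [IsFF K F]

theorem exists_pow_smul_eq {A : Type*} [AddCommGroup A] {ℓ : ℕ} (hdiv : ∀ z : A, ∃ w : A, ℓ • w = z)
    (j : ℕ) (z : A) : ∃ w : A, ℓ ^ j • w = z := by
  induction j generalizing z with
  | zero => exact ⟨z, by simp⟩
  | succ j ih =>
    obtain ⟨w, hw⟩ := hdiv z
    obtain ⟨w', hw'⟩ := ih w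
    exact ⟨w', by rw [pow_succ', mul_smul, hw', hw]⟩

theorem weil_nondeg {ℓ : ℕ} (hℓ : ℓ.Prime) (k : ℕ)
    (hdiv : ∀ (F' : Type v) [Field F'] [Algebra K F'] [IsFF K F'] (z : Pic0 K F'),
      ∃ w : Pic0 K F', ℓ • w = z)
    {x : Pic0 K F} (hx : ℓ ^ k • x = 0)
    (h : ∀ y : Pic0 K F, ℓ ^ k • y = 0 → weil (ℓ ^ k) x y = 1) : x = 0 := by
  classical
  by_contra hx0
  have hex : ∃ i, ℓ ^ i • x = 0 := ⟨k, hx⟩
  set i := Nat.find hex with hi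
  have hi0 : ℓ ^ i • x = 0 := Nat.find_spec hex
  have hik : i ≤ k := Nat.find_min' hex hx
  have hi1 : 1 ≤ i := by
    rcases Nat.eq_zero_or_pos i with h0 | h0
    · rw [h0, pow_zero, one_smul] at hi0
      exact absurd hi0 hx0
    · exact h0
  have hmin : ℓ ^ (i - 1) • x ≠ 0 := Nat.find_min hex (by omega)
  have hpow : ℓ ^ (i - 1) * ℓ = ℓ ^ i := by rw [← pow_succ, Nat.sub_add_cancel hi1]
  have hx' : ℓ • (ℓ ^ (i - 1) • x) = 0 := by rw [← mul_smul, mul_comm, hpow, hi0]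
  obtain ⟨y', hy', hne⟩ := exists_weil_ne_one_of_prime hℓ hdiv hx' hmin
  obtain ⟨y, hy⟩ := exists_pow_smul_eq (hdiv F) (k - i) y'
  have hpow2 : ℓ ^ (k - i) * ℓ ^ i = ℓ ^ k := by rw [← pow_add, Nat.sub_add_cancel hik]
  have hyk : ℓ ^ k • y = 0 := by
    rw [← hpow2, mul_comm, mul_smul, hy, ← hpow, mul_smul, hy', smul_zero]
  have h1 := h y hyk
  have h2 := weil_mul_right (m := ℓ ^ (k - i)) (n := ℓ ^ i) hi0 (by rw [hpow2]; exact hyk)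
  rw [hpow2, hy, h1] at h2
  have h3 := weil_mul_left (m := ℓ ^ (i - 1)) (n := ℓ) (x := x) (by rw [hpow]; exact hi0) hy'
  rw [hpow, ← h2] at h3
  exact hne h3.symm

end Fermat.Agent.S19
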