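import Fermat.Agent.S19.B.Defs

/-!
# S19 / B0 : API for `evalDiv`, semilinear automorphisms, the moving lemma
-/

set_option autoImplicit false

open AlgebraicCurve

namespace Fermat.Agent.S19

open Fermat.Agent.S27

variable {K F : Type*} [Field K] [Field F] [Algebra K F]

theorem evalDiv_zero (f : F) : evalDiv f (0 : Divisor K F) = 1 :=
  Finsupp.prod_zero_index

theorem evalDiv_single (f : F) (v : Place K F) (n : ℤ) :
    evalDiv f (Finsupp.single v n) = val v f ^ n :=
  Finsupp.prod_single_index (zpow_zero _)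

theorem UnitOn.mono {f : F} {D E : Divisor K F} (h : UnitOn f E) (hs : D.support ⊆ E.support) :
    UnitOn f D :=
  ⟨h.1, fun v hv => h.2 v (hs hv)⟩

theorem UnitOn.add {f : F} {D E : Divisor K F} (h : UnitOn f D) (h' : UnitOn f E) :
    UnitOn f (D + E) := by
  classical
  refine ⟨h.1, fun v hv => ?_⟩
  rcases Finset.mem_union.mp (Finsupp.support_add hv) with hv | hv
  · exact h.2 v hv
  · exact h'.2 v hv

theorem UnitOn.neg {f : F} {D : Divisor K F} (h : UnitOn f D) : UnitOn f (-D) :=
  ⟨h.1, fun v hv => h.2 v (by rwa [Finsupp.support_neg] at hv)⟩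

theorem UnitOn.sub {f : F} {D E : Divisor K F} (h : UnitOn f D) (h' : UnitOn f E) :
    UnitOn f (D - E) := by
  rw [sub_eq_add_neg]
  exact h.add h'.neg

theorem UnitOn.zsmul {f : F} {D : Divisor K F} (h : UnitOn f D) (n : ℤ) : UnitOn f (n • D) :=
  ⟨h.1, fun v hv => h.2 v (Finsupp.support_smul hv)⟩

theorem UnitOn.nsmul {f : F} {D : Divisor K F} (h : UnitOn f D) (n : ℕ) : UnitOn f (n • D) :=
  ⟨h.1, fun v hv => h.2 v (Finsupp.support_smul hv)⟩

theorem UnitOn.mul {f g : F} {D : Divisor K F} (h : UnitOn f D) (h' : UnitOn g D) :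
    UnitOn (f * g) D :=
  ⟨mul_ne_zero h.1 h'.1, fun v hv => by rw [v.ord_mul h.1 h'.1, h.2 v hv, h'.2 v hv, add_zero]⟩

theorem UnitOn.inv {f : F} {D : Divisor K F} (h : UnitOn f D) : UnitOn f⁻¹ D :=
  ⟨inv_ne_zero h.1, fun v hv => by rw [v.ord_inv, h.2 v hv, neg_zero]⟩

theorem UnitOn.pow {f : F} {D : Divisor K F} (h : UnitOn f D) (n : ℕ) : UnitOn (f ^ n) D :=
  ⟨pow_ne_zero n h.1, fun v hv => by rw [← zpow_natCast, v.ord_zpow, h.2 v hv, mul_zero]⟩

theorem unitOn_algebraMap {c : K} (hc : c ≠ 0) (D : Divisor K F) :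
    UnitOn (algebraMap K F c) D :=
  ⟨by simpa using hc, fun v _ => S24.Place.ord_algebraMap v c⟩

/-- the normalised valuation of a unit at `v`. -/
theorem adic_eq_one_of_ord_eq_zero {f : F} (hf : f ≠ 0) {v : Place K F} (h : v.ord f = 0) :
    v.adicValuation f = 1 := by
  rw [v.adicValuation_eq_exp_neg_ord hf, h, neg_zero, WithZero.exp_zero]

theorem UnitOn.adic_eq_one {f : F} {D : Divisor K F} (h : UnitOn f D) {v : Place K F}
    (hv : v ∈ D.support) : v.adicValuation f = 1 :=
  adic_eq_one_of_ord_eq_zero h.1 (h.2 v hv)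

section FF

variable [IsAlgClosed K] [CharZero K] [IsFF K F]

/-- `UnitOn` in terms of supports. -/
theorem unitOn_iff_disjoint {f : F} (hf : f ≠ 0) (D : Divisor K F) :
    UnitOn f D ↔ Disjoint (divOf (K := K) f).support D.support := by
  rw [Finset.disjoint_right]
  constructor
  · intro h v hv
    rw [Finsupp.notMem_support_iff, divOf_apply]
    exact h.2 v hv
  · intro h
    refine ⟨hf, fun v hv => ?_⟩
    have := h hv
    rwa [Finsupp.notMem_support_iff, divOf_apply] at this

theorem val_ne_zero_of_ord_eq_zero {f : F} (hf : f ≠ 0) {v : Place K F} (h : v.ord f = 0) :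
    val v f ≠ 0 := by
  have h1 := adic_eq_one_of_ord_eq_zero hf h
  rw [Ne, val_eq_zero_iff v h1.le, h1]
  exact lt_irrefl _

theorem UnitOn.val_ne_zero {f : F} {D : Divisor K F} (h : UnitOn f D) {v : Place K F}
    (hv : v ∈ D.support) : val v f ≠ 0 :=
  val_ne_zero_of_ord_eq_zero h.1 (h.2 v hv)

theorem evalDiv_ne_zero {f : F} {D : Divisor K F} (h : UnitOn f D) : evalDiv f D ≠ 0 := by
  unfold evalDiv Finsupp.prod
  exact Finset.prod_ne_zero_iff.mpr fun v hv => zpow_ne_zero _ (h.val_ne_zero hv)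

theorem evalDiv_add {f : F} {D E : Divisor K F} (h : UnitOn f D) (h' : UnitOn f E) :
    evalDiv f (D + E) = evalDiv f D * evalDiv f E := by
  classical
  unfold evalDiv
  refine Finsupp.prod_add_index (fun v _ => zpow_zero _) (fun v hv a b => ?_)
  refine zpow_add₀ ?_ a b
  rcases Finset.mem_union.mp hv with hv | hv
  · exact h.val_ne_zero hv
  · exact h'.val_ne_zero hv

theorem evalDiv_neg {f : F} {D : Divisor K F} (h : UnitOn f D) :
    evalDiv f (-D) = (evalDiv f D)⁻¹ := by
  apply eq_inv_of_mul_eq_one_left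
  rw [← evalDiv_add h.neg h, neg_add_cancel, evalDiv_zero]

theorem evalDiv_sub {f : F} {D E : Divisor K F} (h : UnitOn f D) (h' : UnitOn f E) :
    evalDiv f (D - E) = evalDiv f D / evalDiv f E := by
  rw [sub_eq_add_neg, evalDiv_add h h'.neg, evalDiv_neg h', div_eq_mul_inv]

theorem evalDiv_nsmul {f : F} {D : Divisor K F} (h : UnitOn f D) (n : ℕ) :
    evalDiv f (n • D) = evalDiv f D ^ n := by
  induction n with
  | zero => rw [zero_smul, evalDiv_zero, pow_zero]
  | succ n ih => rw [succ_nsmul, evalDiv_add (h.nsmul n) h, ih, pow_succ]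

theorem evalDiv_mul {f g : F} {D : Divisor K F} (h : UnitOn f D) (h' : UnitOn g D) :
    evalDiv (f * g) D = evalDiv f D * evalDiv g D := by
  unfold evalDiv Finsupp.prod
  rw [← Finset.prod_mul_distrib]
  refine Finset.prod_congr rfl fun v hv => ?_
  beta_reduce
  rw [val_mul v (h.adic_eq_one hv).le (h'.adic_eq_one hv).le, mul_zpow]

theorem evalDiv_inv {f : F} {D : Divisor K F} (h : UnitOn f D) :
    evalDiv f⁻¹ D = (evalDiv f D)⁻¹ := by
  unfold evalDiv Finsupp.prod
  rw [← Finset.prod_inv_distrib]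
  refine Finset.prod_congr rfl fun v hv => ?_
  beta_reduce
  rw [val_inv v (h.adic_eq_one hv), inv_zpow]

theorem evalDiv_one (D : Divisor K F) : evalDiv (1 : F) D = 1 := by
  unfold evalDiv Finsupp.prod
  exact Finset.prod_eq_one fun v _ => by beta_reduce; rw [val_one, one_zpow]

theorem evalDiv_pow {f : F} {D : Divisor K F} (h : UnitOn f D) (n : ℕ) :
    evalDiv (f ^ n) D = evalDiv f D ^ n := by
  induction n with
  | zero => rw [pow_zero, pow_zero, evalDiv_one]
  | succ n ih => rw [pow_succ, evalDiv_mul (h.pow n) h, ih, pow_succ]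

/-- (the hypothesis `c ≠ 0` is necessary: for `c = 0`, `D = P - Q` the left side is `0`.) -/
theorem evalDiv_algebraMap {c : K} (hc : c ≠ 0) (D : Divisor K F) :
    evalDiv (algebraMap K F c) D = c ^ Divisor.degree D := by
  induction D using Finsupp.induction_linear with
  | zero => rw [evalDiv_zero, map_zero, zpow_zero]
  | add D E hD hE =>
    rw [evalDiv_add (unitOn_algebraMap hc D) (unitOn_algebraMap hc E), hD, hE, map_add,
      zpow_add₀ hc]
  | single v n =>
    rw [evalDiv_single, val_algebraMap, Divisor.degree_single, deg_eq_one, Nat.cast_one, mul_one]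

/-- two functions with the same divisor differ by a constant. -/
theorem exists_const_mul_of_divOf_eq {f g : F} (hf : f ≠ 0) (hg : g ≠ 0)
    (h : divOf (K := K) f = divOf g) : ∃ c : K, c ≠ 0 ∧ g = algebraMap K F c * f := by
  have h1 : ∀ v : Place K F, v.adicValuation (g * f⁻¹) ≤ 1 := by
    intro v
    refine (adic_eq_one_of_ord_eq_zero (mul_ne_zero hg (inv_ne_zero hf)) ?_).le
    have h2 : v.ord f = v.ord g := by
      rw [← divOf_apply (K := K) f v, ← divOf_apply (K := K) g v, h]
    rw [v.ord_mul hg (inv_ne_zero hf), v.ord_inv, h2, add_neg_cancel]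
  obtain ⟨c, hc⟩ := const_of_no_pole h1
  refine ⟨c, ?_, ?_⟩
  · rintro rfl
    rw [map_zero] at hc
    exact mul_ne_zero hg (inv_ne_zero hf) hc
  · rw [← hc, mul_assoc, inv_mul_cancel₀ hf, mul_one]

/-- at a zero or a pole the (junk) value is `0`. -/
theorem val_eq_zero_of_ord_ne_zero {f : F} {v : Place K F} (h : v.ord f ≠ 0) : val v f = 0 := by
  rcases lt_or_gt_of_ne h with h | h
  · exact val_of_pole v (v.not_adicValuation_le_one_iff.mpr h)
  · have h1 : v.adicValuation f < 1 := (adic_lt_one_iff_ord v).mpr (Or.inr h)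
    exact (val_eq_zero_iff v h1.le).mpr h1

theorem evalDiv_eq_zero_of_ord_ne_zero {f : F} {D : Divisor K F} {v : Place K F}
    (hv : v ∈ D.support) (h : v.ord f ≠ 0) : evalDiv f D = 0 := by
  unfold evalDiv Finsupp.prod
  refine Finset.prod_eq_zero hv ?_
  beta_reduce
  rw [val_eq_zero_of_ord_ne_zero h, zero_zpow _ (Finsupp.mem_support_iff.mp hv)]

/-- on divisors of degree `0`, `f(D)` only depends on `div f`. -/
theorem evalDiv_eq_of_divOf_eq {f g : F} (hf : f ≠ 0) (hg : g ≠ 0)
    (h : divOf (K := K) f = divOf g) {D : Divisor K F} (hD : Divisor.degree D = 0) :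
    evalDiv f D = evalDiv g D := by
  by_cases hU : UnitOn f D
  · obtain ⟨c, hc, rfl⟩ := exists_const_mul_of_divOf_eq hf hg h
    rw [evalDiv_mul (unitOn_algebraMap hc D) hU, evalDiv_algebraMap hc, hD, zpow_zero, one_mul]
  · have : ∃ v ∈ D.support, v.ord f ≠ 0 := by
      by_contra hcon
      push Not at hcon
      exact hU ⟨hf, hcon⟩
    obtain ⟨v, hv, hvf⟩ := this
    have hvg : v.ord g ≠ 0 := by
      rwa [← divOf_apply (K := K) g v, ← h, divOf_apply]
    rw [evalDiv_eq_zero_of_ord_ne_zero hv hvf, evalDiv_eq_zero_of_ord_ne_zero hv hvg]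

theorem divOf_mul {f g : F} (hf : f ≠ 0) (hg : g ≠ 0) :
    divOf (K := K) (f * g) = divOf f + divOf g := by
  ext v
  rw [Finsupp.add_apply, divOf_apply, divOf_apply, divOf_apply, v.ord_mul hf hg]

theorem divOf_inv (f : F) : divOf (K := K) f⁻¹ = -divOf f := by
  ext v
  rw [Finsupp.neg_apply, divOf_apply, divOf_apply, v.ord_inv]

theorem divOf_pow (f : F) (n : ℕ) : divOf (K := K) (f ^ n) = n • divOf f := by
  ext v
  rw [Finsupp.smul_apply, divOf_apply, divOf_apply, ← zpow_natCast, v.ord_zpow, nsmul_eq_mul]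

theorem divOf_algebraMap (c : K) : divOf (K := K) (algebraMap K F c) = 0 := by
  ext v
  rw [divOf_apply, S24.Place.ord_algebraMap, Finsupp.zero_apply]

/-- prescribing the orders at finitely many places. -/
theorem exists_ord_eq (S : Finset (Place K F)) (n : Place K F → ℤ) :
    ∃ f : F, f ≠ 0 ∧ ∀ v ∈ S, v.ord f = n v := by
  classical
  rcases S.eq_empty_or_nonempty with rfl | hS
  · exact ⟨1, one_ne_zero, by simp⟩
  choose t ht0 _ ht using fun v : Place K F => S24.Place.exists_uniformizer v
  set N : ℤ := 1 + ∑ v ∈ S, |n v| with hN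
  obtain ⟨f, hf⟩ := exists_approx S (fun v => t v ^ n v) N
  have key : ∀ v ∈ S, v.adicValuation f = v.adicValuation (t v ^ n v) := by
    intro v hv
    apply Valuation.map_eq_of_sub_lt
    refine lt_of_le_of_lt (hf v hv) ?_
    rw [v.adicValuation_eq_exp_neg_ord (zpow_ne_zero _ (ht0 v)), v.ord_zpow, ht v, mul_one,
      WithZero.exp_lt_exp]
    have h1 : |n v| ≤ ∑ v ∈ S, |n v| :=
      Finset.single_le_sum (f := fun v => |n v|) (fun _ _ => abs_nonneg _) hv
    have h2 := le_abs_self (n v)
    omega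
  have hf0 : f ≠ 0 := by
    obtain ⟨v, hv⟩ := hS
    rintro rfl
    have := key v hv
    rw [map_zero] at this
    exact v.adicValuation_ne_zero (zpow_ne_zero _ (ht0 v)) this.symm
  refine ⟨f, hf0, fun v hv => ?_⟩
  have h1 : v.ord f = v.ord (t v ^ n v) := by
    unfold Place.ord
    rw [key v hv]
  rw [h1, v.ord_zpow, ht v, mul_one]

/-- **moving lemma** (weak approximation `S27.exists_approx`). -/
theorem exists_dcl_eq_disjoint (x : Pic0 K F) (S : Finset (Place K F)) :
    ∃ D : Divisor K F, Divisor.degree D = 0 ∧ dcl D = x ∧ Disjoint D.support S := by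
  obtain ⟨D₀, hD₀, rfl⟩ := dcl_surjective x
  obtain ⟨f, hf0, hf⟩ := exists_ord_eq S (fun v => -D₀ v)
  have hdeg : Divisor.degree (divOf (K := K) f) = 0 := degree_divOf hf0
  refine ⟨D₀ + divOf f, by rw [map_add, hD₀, hdeg, add_zero], ?_, ?_⟩
  · rw [dcl_add hD₀ hdeg, (dcl_eq_zero_iff hdeg).mpr (mem_principal_iff.mpr ⟨f, hf0, rfl⟩),
      add_zero]
  · rw [Finset.disjoint_right]
    intro v hv
    rw [Finsupp.notMem_support_iff, Finsupp.add_apply, divOf_apply, hf v hv, add_neg_cancel]

/-! ### semilinear automorphisms -/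

omit [IsAlgClosed K] [CharZero K] [IsFF K F] in
theorem adic_smul (g : SemilinearAut K F) (v : Place K F) (f : F) :
    (g • v).adicValuation (g • f) = v.adicValuation f := by
  rcases eq_or_ne f 0 with rfl | hf
  · simp
  · have hgf : g • f ≠ 0 := by simpa using hf
    rw [(g • v).adicValuation_eq_exp_neg_ord hgf, v.adicValuation_eq_exp_neg_ord hf,
      SemilinearAut.ord_smul]

theorem val_smul (g : SemilinearAut K F) (v : Place K F) (f : F) :
    val (g • v) (g • f) = SemilinearAut.baseAut g (val v f) := by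
  by_cases hf : v.adicValuation f ≤ 1
  · apply val_unique
    rw [← SemilinearAut.smul_algebraMap, ← smul_sub, adic_smul]
    exact val_spec v hf
  · rw [val_of_pole v hf, map_zero]
    apply val_of_pole
    rwa [adic_smul]

theorem divOf_smul (g : SemilinearAut K F) (f : F) : divOf (K := K) (g • f) = g • divOf f := by
  ext w
  rw [SemilinearAut.divisor_smul_apply, divOf_apply, divOf_apply]
  have h := SemilinearAut.ord_smul g (g⁻¹ • w) f
  rwa [smul_inv_smul] at h

theorem evalDiv_smul (g : SemilinearAut K F) (f : F) (D : Divisor K F) :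
    evalDiv (g • f) (g • D) = SemilinearAut.baseAut g (evalDiv f D) := by
  unfold evalDiv
  rw [SemilinearAut.divisor_smul_def, Finsupp.prod_mapDomain_index_inj (MulAction.injective g),
    map_finsuppProd]
  refine Finsupp.prod_congr fun v _ => ?_
  rw [val_smul, map_zpow₀]

omit [IsAlgClosed K] [CharZero K] [IsFF K F] in
theorem dcl_smul (g : SemilinearAut K F) (D : Divisor K F) : dcl (g • D) = g • dcl D := by
  by_cases hD : Divisor.degree D = 0
  · rw [dcl_of_degree hD, dcl_of_degree (by rwa [SemilinearAut.degree_smul]),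
      SemilinearAut.pic0_smul_mk]
    rfl
  · rw [dcl_of_degree_ne hD, dcl_of_degree_ne (by rwa [SemilinearAut.degree_smul])]
    exact (smul_zero (A := Pic0 K F) g).symm

omit [IsAlgClosed K] [CharZero K] [IsFF K F] in
theorem support_smul (g : SemilinearAut K F) (D : Divisor K F) [DecidableEq (Place K F)] :
    (g • D).support = D.support.image (g • ·) := by
  rw [SemilinearAut.divisor_smul_def]
  exact Finsupp.mapDomain_support_of_injective (MulAction.injective g) D

end FF

end Fermat.Agent.S19
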