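import Fermat.Agent.S19.B.Recip

/-!
# S19 / B2 : formal properties of the Weil pairing
-/

set_option autoImplicit false

open AlgebraicCurve

namespace Fermat.Agent.S19

open Fermat.Agent.S27

variable {K F : Type*} [Field K] [Field F] [Algebra K F] [IsAlgClosed K] [CharZero K] [IsFF K F]

/-! ### auxiliary lemmas -/

omit [IsAlgClosed K] [CharZero K] [IsFF K F] in
theorem wp_degree_nsmul {D : Divisor K F} (hD : Divisor.degree D = 0) (m : ℕ) :
    Divisor.degree (m • D) = 0 := by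
  rw [map_nsmul, hD, smul_zero]

omit [IsAlgClosed K] [CharZero K] [IsFF K F] in
theorem wp_dcl_nsmul {D : Divisor K F} (hD : Divisor.degree D = 0) (m : ℕ) :
    dcl (m • D) = m • dcl D := by
  induction m with
  | zero => rw [zero_nsmul, zero_nsmul, dcl_zero]
  | succ k ih => rw [succ_nsmul, succ_nsmul, dcl_add (wp_degree_nsmul hD k) hD, ih]

omit [IsAlgClosed K] [CharZero K] [IsFF K F] in
theorem wp_support_nsmul (m : ℕ) (D : Divisor K F) : (m • D).support ⊆ D.support := by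
  intro v hv
  rw [Finsupp.mem_support_iff] at hv ⊢
  intro h
  apply hv
  rw [Finsupp.smul_apply, h, smul_zero]

theorem wp_exists_fn {m : ℕ} {D : Divisor K F} (hD : Divisor.degree D = 0)
    (h : m • dcl D = 0) : ∃ f : F, f ≠ 0 ∧ divOf (K := K) f = m • D := by
  rw [← wp_dcl_nsmul hD, dcl_eq_zero_iff (wp_degree_nsmul hD m), mem_principal_iff] at h
  obtain ⟨f, hf, h⟩ := h
  exact ⟨f, hf, h.symm⟩

theorem wp_nsmul_dcl {m : ℕ} {D : Divisor K F} {f : F} (hD : Divisor.degree D = 0) (hf : f ≠ 0)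
    (hfD : divOf (K := K) f = m • D) : m • dcl D = 0 := by
  rw [← wp_dcl_nsmul hD, dcl_eq_zero_iff (wp_degree_nsmul hD m), mem_principal_iff]
  exact ⟨f, hf, hfD.symm⟩

theorem wp_unitOn {m : ℕ} {D E : Divisor K F} {f : F} (hf : f ≠ 0)
    (hfD : divOf (K := K) f = m • D) (hd : Disjoint D.support E.support) : UnitOn f E := by
  rw [unitOn_iff_disjoint hf, hfD]
  exact hd.mono_left (wp_support_nsmul m D)

/-- Step 1 of the independence: `E` fixed, `D` moves in its class. -/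
theorem wp_step {m : ℕ} {D D' E : Divisor K F} {f f' g g' : F}
    (hD : Divisor.degree D = 0) (hD' : Divisor.degree D' = 0) (hE : Divisor.degree E = 0)
    (hcl : dcl D = dcl D')
    (hd : Disjoint D.support E.support) (hd' : Disjoint D'.support E.support)
    (hf : f ≠ 0) (hf' : f' ≠ 0) (hg : g ≠ 0) (hg' : g' ≠ 0)
    (hfD : divOf (K := K) f = m • D) (hfD' : divOf (K := K) f' = m • D')
    (hgE : divOf (K := K) g = m • E) (hgE' : divOf (K := K) g' = m • E) :
    evalDiv f E / evalDiv g D = evalDiv f' E / evalDiv g' D' := by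
  classical
  have h0 : dcl (D' - D) = 0 := by rw [dcl_sub hD' hD, hcl, sub_self]
  rw [dcl_eq_zero_iff (by rw [map_sub, hD, hD', sub_self]), mem_principal_iff] at h0
  obtain ⟨u, hu, hDu⟩ := h0
  have husupp : Disjoint (divOf (K := K) u).support E.support := by
    rw [← hDu]
    exact (Finset.disjoint_union_left.2 ⟨hd', hd⟩).mono_left Finsupp.support_sub
  have huE : UnitOn u E := (unitOn_iff_disjoint hu E).2 husupp
  have hfE : UnitOn f E := wp_unitOn hf hfD hd
  have hgD : UnitOn g D := wp_unitOn hg hgE hd.symm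
  have hgu : UnitOn g (divOf (K := K) u) := by
    rw [unitOn_iff_disjoint hg, hgE]
    exact husupp.symm.mono_left (wp_support_nsmul m E)
  have e1 : evalDiv f' E = evalDiv f E * evalDiv u E ^ m := by
    rw [evalDiv_eq_of_divOf_eq (g := f * u ^ m) hf' (mul_ne_zero hf (pow_ne_zero m hu)) _ hE,
      evalDiv_mul hfE (huE.pow m), evalDiv_pow huE]
    rw [divOf_mul hf (pow_ne_zero m hu), divOf_pow, hfD, hfD', ← hDu, ← smul_add,
      add_sub_cancel]
  have e2 : evalDiv g' D' = evalDiv g D * evalDiv u E ^ m := by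
    rw [evalDiv_eq_of_divOf_eq (g := g) hg' hg (by rw [hgE, hgE']) hD']
    have : D' = D + divOf (K := K) u := by rw [← hDu, add_sub_cancel]
    rw [this, evalDiv_add hgD hgu, weil_reciprocity hg hu ((unitOn_iff_disjoint hg _).1 hgu), hgE,
      evalDiv_nsmul huE]
  have h1 : evalDiv u E ≠ 0 := evalDiv_ne_zero huE
  have h2 : evalDiv g D ≠ 0 := evalDiv_ne_zero hgD
  rw [e1, e2, mul_div_mul_right _ _ (pow_ne_zero m h1)]

theorem IsWeil.symm {m : ℕ} {x y : Pic0 K F} {ζ : K} (h : IsWeil m x y ζ) :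
    IsWeil m y x ζ⁻¹ := by
  obtain ⟨D, E, f, g, hD, hE, hx, hy, hd, hf, hg, hfD, hgE, rfl⟩ := h
  exact ⟨E, D, g, f, hE, hD, hy, hx, hd.symm, hg, hf, hgE, hfD, by rw [inv_div]⟩

theorem IsWeil.ne_zero {m : ℕ} {x y : Pic0 K F} {ζ : K} (h : IsWeil m x y ζ) : ζ ≠ 0 := by
  obtain ⟨D, E, f, g, hD, hE, hx, hy, hd, hf, hg, hfD, hgE, rfl⟩ := h
  exact div_ne_zero (evalDiv_ne_zero (wp_unitOn hf hfD hd))
    (evalDiv_ne_zero (wp_unitOn hg hgE hd.symm))

/-- existence, with supports avoiding a prescribed finite set. -/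
theorem wp_exists_data {m : ℕ} {x y : Pic0 K F} (hx : m • x = 0) (hy : m • y = 0) :
    ∃ (D E : Divisor K F) (f g : F), Divisor.degree D = 0 ∧ Divisor.degree E = 0 ∧
      dcl D = x ∧ dcl E = y ∧ Disjoint D.support E.support ∧ f ≠ 0 ∧ g ≠ 0 ∧
      divOf (K := K) f = m • D ∧ divOf (K := K) g = m • E := by
  obtain ⟨E, hE, rfl, -⟩ := exists_dcl_eq_disjoint y ∅
  obtain ⟨D, hD, rfl, hd⟩ := exists_dcl_eq_disjoint x E.support
  obtain ⟨f, hf, hfD⟩ := wp_exists_fn hD hx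
  obtain ⟨g, hg, hgE⟩ := wp_exists_fn hE hy
  exact ⟨D, E, f, g, hD, hE, rfl, rfl, hd, hf, hg, hfD, hgE⟩

/-- existence (moving lemma). -/
theorem exists_isWeil {m : ℕ} {x y : Pic0 K F} (hx : m • x = 0) (hy : m • y = 0) :
    ∃ ζ, IsWeil m x y ζ := by
  obtain ⟨D, E, f, g, hD, hE, h1, h2, hd, hf, hg, hfD, hgE⟩ := wp_exists_data hx hy
  exact ⟨_, D, E, f, g, hD, hE, h1, h2, hd, hf, hg, hfD, hgE, rfl⟩

/-- independence of the choices.  Step 1: `E, g` fixed, `D' = D + div u`, `f' = c f u^m`, use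
`u(mE) = u(div g) = g(div u)`.  Step 2 (symmetric).  Step 3: go through a third `D''` disjoint from
everything. -/
theorem IsWeil.unique {m : ℕ} {x y : Pic0 K F} {ζ ζ' : K} (h : IsWeil m x y ζ)
    (h' : IsWeil m x y ζ') : ζ = ζ' := by
  classical
  obtain ⟨D, E, f, g, hD, hE, hx, hy, hd, hf, hg, hfD, hgE, rfl⟩ := h
  obtain ⟨D', E', f', g', hD', hE', hx', hy', hd', hf', hg', hfD', hgE', rfl⟩ := h'
  obtain ⟨D'', hD'', hx'', hd''⟩ := exists_dcl_eq_disjoint x (E.support ∪ E'.support)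
  rw [Finset.disjoint_union_right] at hd''
  have hmx : m • dcl D'' = 0 := by rw [hx'', ← hx]; exact wp_nsmul_dcl hD hf hfD
  obtain ⟨f'', hf'', hfD''⟩ := wp_exists_fn hD'' hmx
  have s1 : evalDiv f E / evalDiv g D = evalDiv f'' E / evalDiv g D'' :=
    wp_step hD hD'' hE (by rw [hx, hx'']) hd hd''.1 hf hf'' hg hg hfD hfD'' hgE hgE
  have s2 : evalDiv g D'' / evalDiv f'' E = evalDiv g' D'' / evalDiv f'' E' :=
    wp_step hE hE' hD'' (by rw [hy, hy']) hd''.1.symm hd''.2.symm hg hg' hf'' hf'' hgE hgE'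
      hfD'' hfD''
  have s3 : evalDiv f'' E' / evalDiv g' D'' = evalDiv f' E' / evalDiv g' D' :=
    wp_step hD'' hD' hE' (by rw [hx', hx'']) hd''.2 hd' hf'' hf' hg' hg' hfD'' hfD' hgE' hgE'
  rw [s1, ← s3, ← inv_div, s2, inv_div]

theorem IsWeil.weil_eq {m : ℕ} {x y : Pic0 K F} {ζ : K} (h : IsWeil m x y ζ) : weil m x y = ζ := by
  have hex : ∃ ζ, IsWeil m x y ζ := ⟨ζ, h⟩
  unfold weil
  rw [dif_pos hex]
  exact hex.choose_spec.unique h

theorem isWeil_weil {m : ℕ} {x y : Pic0 K F} (hx : m • x = 0) (hy : m • y = 0) :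
    IsWeil m x y (weil m x y) := by
  obtain ⟨ζ, h⟩ := exists_isWeil hx hy
  rw [h.weil_eq]
  exact h

theorem weil_ne_zero (m : ℕ) (x y : Pic0 K F) : weil m x y ≠ 0 := by
  by_cases hex : ∃ ζ, IsWeil m x y ζ
  · obtain ⟨ζ, h⟩ := hex
    rw [h.weil_eq]
    exact h.ne_zero
  · unfold weil
    rw [dif_neg hex]
    exact one_ne_zero

theorem weil_swap {m : ℕ} {x y : Pic0 K F} (hx : m • x = 0) (hy : m • y = 0) :
    weil m y x = (weil m x y)⁻¹ :=
  (isWeil_weil hx hy).symm.weil_eq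

theorem weil_add_left {m : ℕ} {x x' y : Pic0 K F} (hx : m • x = 0) (hx' : m • x' = 0)
    (hy : m • y = 0) : weil m (x + x') y = weil m x y * weil m x' y := by
  classical
  obtain ⟨E, hE, rfl, -⟩ := exists_dcl_eq_disjoint y ∅
  obtain ⟨D, hD, rfl, hd⟩ := exists_dcl_eq_disjoint x E.support
  obtain ⟨D', hD', rfl, hd'⟩ := exists_dcl_eq_disjoint x' E.support
  obtain ⟨f, hf, hfD⟩ := wp_exists_fn hD hx
  obtain ⟨f', hf', hfD'⟩ := wp_exists_fn hD' hx'
  obtain ⟨g, hg, hgE⟩ := wp_exists_fn hE hy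
  have w1 : IsWeil m (dcl D) (dcl E) (evalDiv f E / evalDiv g D) :=
    ⟨D, E, f, g, hD, hE, rfl, rfl, hd, hf, hg, hfD, hgE, rfl⟩
  have w2 : IsWeil m (dcl D') (dcl E) (evalDiv f' E / evalDiv g D') :=
    ⟨D', E, f', g, hD', hE, rfl, rfl, hd', hf', hg, hfD', hgE, rfl⟩
  have w3 : IsWeil m (dcl D + dcl D') (dcl E)
      (evalDiv (f * f') E / evalDiv g (D + D')) :=
    ⟨D + D', E, f * f', g, by rw [map_add, hD, hD', add_zero], hE, dcl_add hD hD', rfl,
      (Finset.disjoint_union_left.2 ⟨hd, hd'⟩).mono_left Finsupp.support_add,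
      mul_ne_zero hf hf', hg, by rw [divOf_mul hf hf', hfD, hfD', smul_add], hgE, rfl⟩
  rw [w1.weil_eq, w2.weil_eq, w3.weil_eq,
    evalDiv_mul (wp_unitOn hf hfD hd) (wp_unitOn hf' hfD' hd'),
    evalDiv_add (wp_unitOn hg hgE hd.symm) (wp_unitOn hg hgE hd'.symm), mul_div_mul_comm]

theorem weil_add_right {m : ℕ} {x y y' : Pic0 K F} (hx : m • x = 0) (hy : m • y = 0)
    (hy' : m • y' = 0) : weil m x (y + y') = weil m x y * weil m x y' := by
  have hyy : m • (y + y') = 0 := by rw [nsmul_add, hy, hy', add_zero]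
  rw [weil_swap hyy hx, weil_add_left hy hy' hx, weil_swap hx hy, weil_swap hx hy', mul_inv,
    inv_inv, inv_inv]

theorem weil_pow_eq_one {m : ℕ} {x y : Pic0 K F} (hx : m • x = 0) (hy : m • y = 0) :
    weil m x y ^ m = 1 := by
  obtain ⟨D, E, f, g, hD, hE, h1, h2, hd, hf, hg, hfD, hgE⟩ := wp_exists_data hx hy
  have w : IsWeil m x y (evalDiv f E / evalDiv g D) :=
    ⟨D, E, f, g, hD, hE, h1, h2, hd, hf, hg, hfD, hgE, rfl⟩
  have hfE : UnitOn f E := wp_unitOn hf hfD hd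
  have hgD : UnitOn g D := wp_unitOn hg hgE hd.symm
  have hdd : Disjoint (divOf (K := K) f).support (divOf (K := K) g).support := by
    rw [hfD, hgE]
    exact hd.mono (wp_support_nsmul m D) (wp_support_nsmul m E)
  rw [w.weil_eq, div_pow, ← evalDiv_nsmul hfE, ← evalDiv_nsmul hgD, ← hgE, ← hfD,
    weil_reciprocity hf hg hdd, div_self]
  rw [hfD]
  exact evalDiv_ne_zero (hgD.nsmul m)

/-- Galois equivariance. -/
theorem weil_smul (g : SemilinearAut K F) {m : ℕ} {x y : Pic0 K F} (hx : m • x = 0)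
    (hy : m • y = 0) : weil m (g • x) (g • y) = SemilinearAut.baseAut g (weil m x y) := by
  classical
  obtain ⟨D, E, f, h, hD, hE, h1, h2, hd, hf, hh, hfD, hhE⟩ := wp_exists_data hx hy
  have w : IsWeil m x y (evalDiv f E / evalDiv h D) :=
    ⟨D, E, f, h, hD, hE, h1, h2, hd, hf, hh, hfD, hhE, rfl⟩
  have w' : IsWeil m (g • x) (g • y) (evalDiv (g • f) (g • E) / evalDiv (g • h) (g • D)) := by
    refine ⟨g • D, g • E, g • f, g • h, by rw [SemilinearAut.degree_smul, hD],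
      by rw [SemilinearAut.degree_smul, hE], by rw [dcl_smul, h1], by rw [dcl_smul, h2], ?_,
      (smul_ne_zero_iff_ne g).2 hf, (smul_ne_zero_iff_ne g).2 hh,
      by rw [divOf_smul, hfD, smul_comm], by rw [divOf_smul, hhE, smul_comm], rfl⟩
    rw [support_smul, support_smul]
    exact (Finset.disjoint_image (MulAction.injective g)).2 hd
  rw [w.weil_eq, w'.weil_eq, evalDiv_smul, evalDiv_smul, map_div₀]

/-- compatibility: `e_{mn}(x, y) = e_n(m x, y)` for `y` killed by `n`. -/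
theorem weil_mul_left {m n : ℕ} {x y : Pic0 K F} (hx : (m * n) • x = 0) (hy : n • y = 0) :
    weil (m * n) x y = weil n (m • x) y := by
  obtain ⟨E, hE, rfl, -⟩ := exists_dcl_eq_disjoint y ∅
  obtain ⟨D, hD, rfl, hd⟩ := exists_dcl_eq_disjoint x E.support
  obtain ⟨f, hf, hfD⟩ := wp_exists_fn hD hx
  obtain ⟨g, hg, hgE⟩ := wp_exists_fn hE hy
  have hgD : UnitOn g D := wp_unitOn hg hgE hd.symm
  have w1 : IsWeil (m * n) (dcl D) (dcl E) (evalDiv f E / evalDiv (g ^ m) D) :=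
    ⟨D, E, f, g ^ m, hD, hE, rfl, rfl, hd, hf, pow_ne_zero m hg, hfD,
      by rw [divOf_pow, hgE, mul_smul], rfl⟩
  have w2 : IsWeil n (m • dcl D) (dcl E) (evalDiv f E / evalDiv g (m • D)) :=
    ⟨m • D, E, f, g, wp_degree_nsmul hD m, hE, wp_dcl_nsmul hD m, rfl,
      hd.mono_left (wp_support_nsmul m D), hf, hg, by rw [hfD, mul_comm, mul_smul], hgE, rfl⟩
  rw [w1.weil_eq, w2.weil_eq, evalDiv_pow hgD, evalDiv_nsmul hgD]

/-- compatibility: `e_{mn}(x, y) = e_n(x, m y)` for `x` killed by `n`. -/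
theorem weil_mul_right {m n : ℕ} {x y : Pic0 K F} (hx : n • x = 0) (hy : (m * n) • y = 0) :
    weil (m * n) x y = weil n x (m • y) := by
  have hx' : (m * n) • x = 0 := by rw [mul_smul, hx, smul_zero]
  have hy' : n • (m • y) = 0 := by rw [← mul_smul, mul_comm, hy]
  rw [weil_swap hy hx', weil_mul_left hy hx, weil_swap hy' hx]

end Fermat.Agent.S19
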