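import Fermat.Agent.S19.B.Eval

/-!
# S19 / B1b : Weil reciprocity on the projective line, for the pair `(u, t)`

`E = K(t)`.  If `u` has neither a zero nor a pole at `t = 0, ∞` then `u(div t) = t(div u)`.
Proof: `u = c ∏ (t - a_i) / ∏ (t - b_j)` with as many `a`'s as `b`'s, all non zero;
`u(0)/u(∞) = ∏ a_i / ∏ b_j = t(div u)`.
By multiplicativity (`evalDiv_mul`, `evalDiv_add`) it is enough to treat constants and
`u = (t - a)/(t - b)`, `a b ≠ 0`.
-/

set_option autoImplicit false
set_option linter.unusedSectionVars false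

open AlgebraicCurve IntermediateField

namespace Fermat.Agent.S19

open Fermat.Agent.S27

variable {K E : Type*} [Field K] [Field E] [Algebra K E] [IsAlgClosed K] [CharZero K] [IsFF K E]

namespace P1

/-- a sum of positive integers equal to `1` has exactly one term. -/
theorem exists_unique_of_sum_eq_one {ι : Type*} (s : Finset ι) (f : ι → ℤ)
    (hpos : ∀ i ∈ s, 0 < f i) (hsum : ∑ i ∈ s, f i = 1) :
    ∃ i ∈ s, f i = 1 ∧ ∀ j ∈ s, j = i := by
  classical
  have hne : s.Nonempty := by
    rw [Finset.nonempty_iff_ne_empty]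
    rintro rfl
    simp at hsum
  obtain ⟨i, hi⟩ := hne
  have h1 := Finset.add_sum_erase s f hi
  have h2 : 0 ≤ ∑ j ∈ s.erase i, f j :=
    Finset.sum_nonneg fun j hj => (hpos j (Finset.mem_of_mem_erase hj)).le
  have h3 := hpos i hi
  refine ⟨i, hi, by omega, fun j hj => ?_⟩
  by_contra hji
  have h4 : f j ≤ ∑ j ∈ s.erase i, f j :=
    Finset.single_le_sum (f := f) (fun k hk => (hpos k (Finset.mem_of_mem_erase hk)).le)
      (Finset.mem_erase.2 ⟨hji, hj⟩)
  have h5 := hpos j hj
  omega

variable {t : E} (ht : Transcendental K t) (htop : K⟮t⟯ = ⊤)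

include ht htop

theorem param_gen : S24.IsFiniteParam K t :=
  ⟨ht, by
    rw [htop]
    exact FiniteDimensional.of_finrank_eq_succ (n := 0) IntermediateField.finrank_top⟩

omit ht in
theorem finrank_gen : Module.finrank K⟮t⟯ E = 1 := by
  rw [htop]
  exact IntermediateField.finrank_top

omit htop in
theorem sub_ne_zero' (a : K) : t - algebraMap K E a ≠ 0 := by
  intro h
  apply ht
  rw [sub_eq_zero.1 h]
  exact isAlgebraic_algebraMap a

theorem exists_zero (a : K) : ∃ v : Place K E, v.ord (t - algebraMap K E a) = 1 ∧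
    ∀ w : Place K E, 0 < w.ord (t - algebraMap K E a) → w = v := by
  have hy := param_gen ht htop
  have h := hy.sum_fibre a
  rw [finrank_gen htop] at h
  obtain ⟨v, -, hv1, hv2⟩ := exists_unique_of_sum_eq_one (hy.finite_fibre a).toFinset
    (fun w => w.ord (t - algebraMap K E a))
    (fun w hw => by
      have h1 : w ∈ {v : Place K E | 0 < v.ord (t - algebraMap K E a)} :=
        (hy.finite_fibre a).mem_toFinset.1 hw
      exact h1) (by exact_mod_cast h)
  exact ⟨v, hv1, fun w hw => hv2 w ((hy.finite_fibre a).mem_toFinset.2 hw)⟩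

theorem exists_pole : ∃ v : Place K E, v.ord t = -1 ∧ ∀ w : Place K E, w.ord t < 0 → w = v := by
  have hy := param_gen ht htop
  have h := hy.sum_poles
  rw [finrank_gen htop] at h
  obtain ⟨v, -, hv1, hv2⟩ := exists_unique_of_sum_eq_one hy.finite_poles.toFinset
    (fun w => - w.ord t)
    (fun w hw => by
      have h1 : w ∈ {v : Place K E | v.ord t < 0} := hy.finite_poles.mem_toFinset.1 hw
      have h2 : w.ord t < 0 := h1
      omega)
    (by rw [Finset.sum_neg_distrib, h]; simp)
  exact ⟨v, by omega, fun w hw => hv2 w (hy.finite_poles.mem_toFinset.2 hw)⟩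

omit htop in
theorem ord_sub_of_neg {w : Place K E} (a : K) (h : w.ord t < 0) :
    w.ord (t - algebraMap K E a) = w.ord t := by
  have ht0 : t ≠ 0 := by
    have := sub_ne_zero' ht 0
    simpa using this
  have h1 : w.adicValuation (algebraMap K E a) < w.adicValuation t := by
    have h2 : (1 : WithZero (Multiplicative ℤ)) < w.adicValuation t := by
      rw [w.adicValuation_eq_exp_neg_ord ht0, ← WithZero.exp_zero, WithZero.exp_lt_exp]
      omega
    refine lt_of_le_of_lt ?_ h2
    rw [adic_le_one_iff_mem]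
    exact w.algebraMap_mem' a
  unfold Place.ord
  rw [Valuation.map_sub_eq_of_lt_left _ h1]

omit htop in
theorem ord_sub_nonneg {w : Place K E} (a : K) (h : 0 ≤ w.ord t) :
    0 ≤ w.ord (t - algebraMap K E a) := by
  have ht0 : t ≠ 0 := by
    have := sub_ne_zero' ht 0
    simpa using this
  rw [← S24.Place.mem_iff_ord_nonneg w (sub_ne_zero' ht a)]
  exact w.toValuationSubring.sub_mem ((S24.Place.mem_iff_ord_nonneg w ht0).2 h) (w.algebraMap_mem' a)

/-- the places of `K(t)` we need. -/
theorem exists_places : ∃ (v : K → Place K E) (vi : Place K E),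
    (∀ a, divOf (K := K) (t - algebraMap K E a) = Finsupp.single (v a) 1 - Finsupp.single vi 1) ∧
    (∀ a, val (v a) t = a) ∧ (∀ a, v a ≠ vi) := by
  classical
  choose v hv1 hv2 using exists_zero ht htop
  obtain ⟨vi, hvi1, hvi2⟩ := exists_pole ht htop
  have hne : ∀ a, v a ≠ vi := by
    intro a h
    have h1 := ord_sub_of_neg ht (w := vi) a (by omega)
    rw [← h, hv1 a, h, hvi1] at h1
    omega
  refine ⟨v, vi, fun a => ?_, fun a => ?_, hne⟩
  · ext w
    rw [divOf_apply, Finsupp.sub_apply, Finsupp.single_apply, Finsupp.single_apply]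
    by_cases hwi : vi = w
    · subst hwi
      rw [if_neg (hne a), if_pos rfl, ord_sub_of_neg ht a (by omega), hvi1]
      rfl
    · rw [if_neg hwi]
      have h0 : 0 ≤ w.ord t := by
        by_contra hlt
        exact hwi (hvi2 w (by omega)).symm
      have h1 := ord_sub_nonneg ht a h0
      by_cases hwa : v a = w
      · subst hwa
        rw [if_pos rfl, hv1 a]
        rfl
      · rw [if_neg hwa]
        have : ¬ 0 < w.ord (t - algebraMap K E a) := fun h => hwa (hv2 a w h).symm
        omega
  · apply val_unique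
    rw [adic_lt_one_iff_ord]
    right
    rw [hv1 a]
    exact one_pos

omit ht htop

/-! ### reciprocity as a multiplicative property -/

variable (K) in
/-- `u` satisfies reciprocity with `t`. -/
def Nice (t u : E) : Prop :=
  u ≠ 0 ∧ UnitOn u (divOf (K := K) t) ∧
    evalDiv u (divOf (K := K) t) = evalDiv t (divOf (K := K) u)

theorem unitOn_symm {f g : E} (hf : f ≠ 0) (hg : g ≠ 0) (h : UnitOn f (divOf (K := K) g)) :
    UnitOn g (divOf (K := K) f) :=
  (unitOn_iff_disjoint hg _).2 ((unitOn_iff_disjoint hf _).1 h).symm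

theorem Nice.mul (ht0 : t ≠ 0) {u u' : E} (h : Nice K t u) (h' : Nice K t u') :
    Nice K t (u * u') := by
  obtain ⟨h0, h1, h2⟩ := h
  obtain ⟨h0', h1', h2'⟩ := h'
  refine ⟨mul_ne_zero h0 h0', h1.mul h1', ?_⟩
  rw [evalDiv_mul h1 h1', divOf_mul h0 h0', evalDiv_add (unitOn_symm h0 ht0 h1)
    (unitOn_symm h0' ht0 h1'), h2, h2']

theorem Nice.inv (ht0 : t ≠ 0) {u : E} (h : Nice K t u) : Nice K t u⁻¹ := by
  obtain ⟨h0, h1, h2⟩ := h
  refine ⟨inv_ne_zero h0, h1.inv, ?_⟩
  rw [evalDiv_inv h1, divOf_inv, evalDiv_neg (unitOn_symm h0 ht0 h1), h2]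

theorem Nice.const (ht0 : t ≠ 0) {c : K} (hc : c ≠ 0) : Nice K t (algebraMap K E c) := by
  refine ⟨by simpa using hc, unitOn_algebraMap hc _, ?_⟩
  rw [evalDiv_algebraMap hc, degree_divOf ht0, zpow_zero, divOf_algebraMap, evalDiv_zero]

theorem mem_support_sub_single {x y w : Place K E}
    (h : w ∈ (Finsupp.single x 1 - Finsupp.single y 1 : Divisor K E).support) : w = x ∨ w = y := by
  classical
  rw [Finsupp.mem_support_iff, Finsupp.sub_apply, Finsupp.single_apply, Finsupp.single_apply] at h
  by_cases h1 : x = w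
  · exact Or.inl h1.symm
  · by_cases h2 : y = w
    · exact Or.inr h2.symm
    · rw [if_neg h1, if_neg h2] at h
      exact absurd rfl h

theorem unitOn_single {f : E} (hf : f ≠ 0) {x : Place K E} (hx : x.ord f = 0) (n : ℤ) :
    UnitOn f (Finsupp.single x n) := by
  refine ⟨hf, fun w hw => ?_⟩
  have := Finsupp.support_single_subset hw
  rw [Finset.mem_singleton] at this
  rw [this]
  exact hx

theorem evalDiv_sub_single {f : E} (hf : f ≠ 0) {x y : Place K E} (hx : x.ord f = 0)
    (hy : y.ord f = 0) :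
    evalDiv f (Finsupp.single x 1 - Finsupp.single y 1) = val x f / val y f := by
  rw [evalDiv_sub (unitOn_single hf hx 1) (unitOn_single hf hy 1), evalDiv_single, evalDiv_single,
    zpow_one, zpow_one]

theorem adic_eq_one_of_ord {f : E} (hf : f ≠ 0) {w : Place K E} (h : w.ord f = 0) :
    w.adicValuation f = 1 := by
  rw [w.adicValuation_eq_exp_neg_ord hf, h]
  simp

section Data

variable (v : K → Place K E) (vi : Place K E)
  (hdiv : ∀ a, divOf (K := K) (t - algebraMap K E a) = Finsupp.single (v a) 1 - Finsupp.single vi 1)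
  (hval : ∀ a, val (v a) t = a) (hne : ∀ a, v a ≠ vi)

include hdiv in
theorem ord_T (a : K) (w : Place K E) : w.ord (t - algebraMap K E a) =
    (Finsupp.single (v a) 1 - Finsupp.single vi 1 : Divisor K E) w := by
  rw [← hdiv, divOf_apply]

include hdiv in
theorem divOf_t : divOf (K := K) t = Finsupp.single (v 0) 1 - Finsupp.single vi 1 := by
  rw [← hdiv 0, map_zero, sub_zero]

include hval in
theorem v_ne {a b : K} (h : a ≠ b) : v a ≠ v b := by
  intro h'
  apply h
  rw [← hval a, h', hval b]

include hdiv hval hne in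
theorem ord_T_v {a b : K} (h : a ≠ b) : (v b).ord (t - algebraMap K E a) = 0 := by
  classical
  rw [ord_T v vi hdiv, Finsupp.sub_apply, Finsupp.single_apply, Finsupp.single_apply,
    if_neg (v_ne v hval h), if_neg (hne b).symm]
  rfl

include hdiv hne in
theorem ord_T_vi (a : K) : vi.ord (t - algebraMap K E a) = -1 := by
  classical
  rw [ord_T v vi hdiv, Finsupp.sub_apply, Finsupp.single_apply, Finsupp.single_apply,
    if_neg (hne a), if_pos rfl]
  rfl

include hdiv hne in
theorem ord_T_self (a : K) : (v a).ord (t - algebraMap K E a) = 1 := by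
  classical
  rw [ord_T v vi hdiv, Finsupp.sub_apply, Finsupp.single_apply, Finsupp.single_apply,
    if_pos rfl, if_neg (hne a).symm]
  rfl

include ht hdiv hval hne in
theorem val_T_v (a b : K) : val (v b) (t - algebraMap K E a) = b - a := by
  have ht0 : t ≠ 0 := by simpa using sub_ne_zero' ht 0
  have h1 : (v b).adicValuation t ≤ 1 := by
    rw [adic_le_one_iff_mem, S24.Place.mem_iff_ord_nonneg _ ht0]
    have e : t = t - algebraMap K E 0 := by rw [map_zero, sub_zero]
    rw [e]
    by_cases hb : (0 : K) = b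
    · subst hb
      rw [ord_T_self v vi hdiv hne]
      exact zero_le_one
    · rw [ord_T_v v vi hdiv hval hne hb]
  have h2 : (v b).adicValuation (algebraMap K E a) ≤ 1 := by
    rw [adic_le_one_iff_mem]
    exact (v b).algebraMap_mem' a
  rw [val_sub _ h1 h2, hval, val_algebraMap]

include ht hdiv hval hne in
theorem nice_W {a : K} (ha : a ≠ 0) :
    Nice K t ((t - algebraMap K E a) / (t - algebraMap K E 1)) := by
  classical
  have ht0 : t ≠ 0 := by simpa using sub_ne_zero' ht 0
  have hTa := sub_ne_zero' ht a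
  have hT1 := sub_ne_zero' ht 1
  have hW0 : (t - algebraMap K E a) / (t - algebraMap K E 1) ≠ 0 := div_ne_zero hTa hT1
  have hdW : divOf (K := K) ((t - algebraMap K E a) / (t - algebraMap K E 1)) =
      Finsupp.single (v a) 1 - Finsupp.single (v 1) 1 := by
    rw [div_eq_mul_inv, divOf_mul hTa (inv_ne_zero hT1), divOf_inv, hdiv, hdiv]
    abel
  have hordW : ∀ w : Place K E, w.ord ((t - algebraMap K E a) / (t - algebraMap K E 1)) =
      w.ord (t - algebraMap K E a) - w.ord (t - algebraMap K E 1) := by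
    intro w
    rw [div_eq_mul_inv, w.ord_mul hTa (inv_ne_zero hT1), w.ord_inv]
    ring
  have o1 : (v 0).ord ((t - algebraMap K E a) / (t - algebraMap K E 1)) = 0 := by
    rw [hordW, ord_T_v v vi hdiv hval hne ha, ord_T_v v vi hdiv hval hne one_ne_zero]
    rfl
  have o2 : vi.ord ((t - algebraMap K E a) / (t - algebraMap K E 1)) = 0 := by
    rw [hordW, ord_T_vi v vi hdiv hne, ord_T_vi v vi hdiv hne]
    rfl
  have e0 : t = t - algebraMap K E 0 := by rw [map_zero, sub_zero]
  have o3 : (v a).ord t = 0 := by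
    rw [e0]
    exact ord_T_v v vi hdiv hval hne ha.symm
  have o4 : (v 1).ord t = 0 := by
    rw [e0]
    exact ord_T_v v vi hdiv hval hne zero_ne_one
  refine ⟨hW0, ⟨hW0, fun w hw => ?_⟩, ?_⟩
  · rw [divOf_t v vi hdiv] at hw
    rcases mem_support_sub_single hw with rfl | rfl
    · exact o1
    · exact o2
  · rw [hdW, divOf_t v vi hdiv, evalDiv_sub_single hW0 o1 o2, evalDiv_sub_single ht0 o3 o4,
      hval, hval]
    -- the two values of `W`
    have w1 : val (v 0) ((t - algebraMap K E a) / (t - algebraMap K E 1)) = a := by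
      have a1 := adic_eq_one_of_ord hTa (ord_T_v v vi hdiv hval hne ha)
      have a2 := adic_eq_one_of_ord hT1 (ord_T_v v vi hdiv hval hne one_ne_zero)
      have a3 : (v 0).adicValuation (t - algebraMap K E 1)⁻¹ ≤ 1 := by
        rw [map_inv₀, a2, inv_one]
      rw [div_eq_mul_inv, val_mul _ a1.le a3, val_inv _ a2, val_T_v ht v vi hdiv hval hne,
        val_T_v ht v vi hdiv hval hne]
      field_simp
      ring
    have w2 : val vi ((t - algebraMap K E a) / (t - algebraMap K E 1)) = 1 := by
      apply val_unique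
      rw [adic_lt_one_iff_ord]
      have e : (t - algebraMap K E a) / (t - algebraMap K E 1) - algebraMap K E 1 =
          algebraMap K E (1 - a) / (t - algebraMap K E 1) := by
        rw [map_sub, eq_div_iff hT1, sub_mul, div_mul_cancel₀ _ hT1, map_one]
        ring
      rw [e]
      by_cases ha1 : (1 : K) - a = 0
      · left
        rw [ha1, map_zero, zero_div]
      · right
        have hc : algebraMap K E (1 - a) ≠ 0 := (map_ne_zero (algebraMap K E)).2 ha1
        rw [div_eq_mul_inv, vi.ord_mul hc (inv_ne_zero hT1), vi.ord_inv,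
          S24.Place.ord_algebraMap, ord_T_vi v vi hdiv hne]
        norm_num
    rw [w1, w2]

variable (K) in
/-- `u = t ^ k (t - 1) ^ m u₀` with `u₀` nice. -/
def Good (t u : E) : Prop :=
  ∃ (k m : ℤ) (u₀ : E), Nice K t u₀ ∧ u = t ^ k * (t - algebraMap K E 1) ^ m * u₀

include ht in
theorem Good.mul {u u' : E} (h : Good K t u) (h' : Good K t u') : Good K t (u * u') := by
  have ht0 : t ≠ 0 := by simpa using sub_ne_zero' ht 0
  have hT1 := sub_ne_zero' ht 1
  obtain ⟨k, m, u₀, h1, rfl⟩ := h
  obtain ⟨k', m', u₀', h1', rfl⟩ := h'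
  refine ⟨k + k', m + m', u₀ * u₀', h1.mul ht0 h1', ?_⟩
  rw [zpow_add₀ ht0, zpow_add₀ hT1]
  ring

include ht in
theorem Good.inv {u : E} (h : Good K t u) : Good K t u⁻¹ := by
  have ht0 : t ≠ 0 := by simpa using sub_ne_zero' ht 0
  obtain ⟨k, m, u₀, h1, rfl⟩ := h
  refine ⟨-k, -m, u₀⁻¹, h1.inv ht0, ?_⟩
  rw [zpow_neg, zpow_neg, mul_inv, mul_inv]

include ht in
theorem Good.const {c : K} (hc : c ≠ 0) : Good K t (algebraMap K E c) := by
  have ht0 : t ≠ 0 := by simpa using sub_ne_zero' ht 0
  exact ⟨0, 0, _, Nice.const ht0 hc, by simp⟩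

include ht hdiv hval hne in
theorem good_T (a : K) : Good K t (t - algebraMap K E a) := by
  have ht0 : t ≠ 0 := by simpa using sub_ne_zero' ht 0
  have hT1 := sub_ne_zero' ht 1
  by_cases ha : a = 0
  · subst ha
    refine ⟨1, 0, algebraMap K E 1, Nice.const ht0 one_ne_zero, ?_⟩
    simp
  · refine ⟨0, 1, _, nice_W ht v vi hdiv hval hne ha, ?_⟩
    rw [zpow_zero, zpow_one, one_mul, mul_div_cancel₀ _ hT1]

include ht hdiv hval hne in
theorem good_aeval {p : Polynomial K} (hp : p ≠ 0) : Good K t (Polynomial.aeval t p) := by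
  let M : Submonoid E :=
    { carrier := {u | Good K t u}
      mul_mem' := fun h h' => Good.mul ht h h'
      one_mem' := by
        have := Good.const (E := E) ht (one_ne_zero (α := K))
        rwa [map_one] at this }
  have h1 := (IsAlgClosed.splits p).eq_prod_roots
  have h2 : Polynomial.aeval t p = algebraMap K E p.leadingCoeff *
      (p.roots.map fun a => t - algebraMap K E a).prod := by
    conv_lhs => rw [h1]
    rw [map_mul, Polynomial.aeval_C, map_multiset_prod, Multiset.map_map]
    congr 2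
    refine Multiset.map_congr rfl fun a _ => ?_
    simp
  rw [h2]
  refine Good.mul ht (Good.const ht (Polynomial.leadingCoeff_ne_zero.2 hp)) ?_
  refine Submonoid.multiset_prod_mem M _ fun u hu => ?_
  obtain ⟨a, -, rfl⟩ := Multiset.mem_map.1 hu
  exact good_T ht v vi hdiv hval hne a

include ht htop hdiv hval hne in
theorem good_of_ne_zero {u : E} (hu : u ≠ 0) : Good K t u := by
  have hmem : u ∈ K⟮t⟯ := htop ▸ IntermediateField.mem_top
  obtain ⟨r, s, rfl⟩ := (IntermediateField.mem_adjoin_simple_iff K u).1 hmem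
  have hr : r ≠ 0 := by
    rintro rfl
    simp at hu
  have hs : s ≠ 0 := by
    rintro rfl
    simp at hu
  rw [div_eq_mul_inv]
  exact Good.mul ht (good_aeval ht v vi hdiv hval hne hr)
    (Good.inv ht (good_aeval ht v vi hdiv hval hne hs))

include ht htop hdiv hval hne in
theorem nice_of_unitOn {u : E} (hu : u ≠ 0) (h : UnitOn u (divOf (K := K) t)) : Nice K t u := by
  classical
  have ht0 : t ≠ 0 := by simpa using sub_ne_zero' ht 0
  have hT1 := sub_ne_zero' ht 1
  obtain ⟨k, m, u₀, hn, rfl⟩ := good_of_ne_zero ht htop v vi hdiv hval hne hu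
  have e0 : t = t - algebraMap K E 0 := by rw [map_zero, sub_zero]
  have hsupp : ∀ w : Place K E, w = v 0 ∨ w = vi → w ∈ (divOf (K := K) t).support := by
    intro w hw
    rw [Finsupp.mem_support_iff, divOf_apply, e0]
    rcases hw with hw | hw
    · rw [hw, ord_T_self v vi hdiv hne]; exact one_ne_zero
    · rw [hw, ord_T_vi v vi hdiv hne]; norm_num
  have hord : ∀ w : Place K E, w.ord (t ^ k * (t - algebraMap K E 1) ^ m * u₀) =
      k * w.ord t + m * w.ord (t - algebraMap K E 1) + w.ord u₀ := by
    intro w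
    rw [w.ord_mul (mul_ne_zero (zpow_ne_zero _ ht0) (zpow_ne_zero _ hT1)) hn.1,
      w.ord_mul (zpow_ne_zero _ ht0) (zpow_ne_zero _ hT1), w.ord_zpow, w.ord_zpow]
  have h1 := h.2 (v 0) (hsupp _ (Or.inl rfl))
  have h2 := h.2 vi (hsupp _ (Or.inr rfl))
  rw [hord, hn.2.1.2 _ (hsupp _ (Or.inl rfl)), ord_T_v v vi hdiv hval hne one_ne_zero] at h1
  rw [hord, hn.2.1.2 _ (hsupp _ (Or.inr rfl)), ord_T_vi v vi hdiv hne] at h2
  have h3 : (v 0).ord t = 1 := by
    rw [e0]; exact ord_T_self v vi hdiv hne 0
  have h4 : vi.ord t = -1 := by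
    rw [e0]; exact ord_T_vi v vi hdiv hne 0
  rw [h3] at h1
  rw [h4] at h2
  have hk : k = 0 := by omega
  have hm : m = 0 := by omega
  subst hk hm
  simpa using hn

end Data

end P1

theorem recip_gen (t : E) (ht : Transcendental K t) (htop : K⟮t⟯ = ⊤) (u : E) (hu : u ≠ 0)
    (hdisj : Disjoint (divOf (K := K) u).support (divOf (K := K) t).support) :
    evalDiv u (divOf (K := K) t) = evalDiv t (divOf (K := K) u) := by
  obtain ⟨v, vi, hdiv, hval, hne⟩ := P1.exists_places ht htop
  exact (P1.nice_of_unitOn ht htop v vi hdiv hval hne hu ((unitOn_iff_disjoint hu _).2 hdisj)).2.2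

end Fermat.Agent.S19
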