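import Fermat.Agent.S19.B.ValNorm
import Fermat.Agent.S19.B.P1

/-!
# S19 / B1c : Weil reciprocity `f(div g) = g(div f)`

If `g` is constant both sides are `1`.  Otherwise `E = K⟮g⟯ ⊆ F` is finite and, with `t` the
generator of `E`:
`f(div g) = f(π^* div t) = (N f)(div t) = t(div N f) = t(π_* div f) = g(div f)`.
-/

set_option autoImplicit false
set_option linter.unusedSectionVars false

open AlgebraicCurve IntermediateField

namespace Fermat.Agent.S19

open Fermat.Agent.S27 Fermat.Agent.S24

section Ext

variable {K F F' : Type*} [Field K] [Field F] [Field F'] [Algebra K F] [Algebra K F']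
  [Algebra F F'] [IsScalarTower K F F'] [IsAlgClosed K] [CharZero K] [IsFF K F] [IsFF K F']
  [FiniteDimensional F F']

/-- value at `w` of a function coming from `F`. -/
theorem val_algebraMap_ext (w : Place K F') (g : F) :
    val w (algebraMap F F' g) = val (w.restrict F) g := by
  by_cases hg : (w.restrict F).adicValuation g ≤ 1
  · apply val_unique
    have h1 := val_spec (w.restrict F) hg
    rw [adic_lt_one_iff_ord] at h1 ⊢
    have e : algebraMap F F' g - algebraMap K F' (val (w.restrict F) g) =
        algebraMap F F' (g - algebraMap K F (val (w.restrict F) g)) := by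
      rw [map_sub, ← IsScalarTower.algebraMap_apply]
    rw [e]
    rcases h1 with h1 | h1
    · left; rw [h1, map_zero]
    · right
      rw [w.ord_restrict]
      have := w.ramificationIndex_pos (F := F)
      positivity
  · rw [val_of_pole _ hg, val_of_pole]
    rw [adic_le_one_iff_mem] at hg ⊢
    exact hg

theorem divOf_algebraMap_ext (g : F) :
    divOf (K := K) (algebraMap F F' g) = Divisor.pullback F' (divOf (K := K) g) := by
  ext w
  rw [divOf_apply, Divisor.pullback_apply_eq_ord (f := g) (fun v => rfl)]

theorem divOf_norm {f : F'} (hf : f ≠ 0) :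
    divOf (K := K) (Algebra.norm F f) = Divisor.mapRestrict F (divOf (K := K) f) := by
  obtain ⟨y, hy⟩ := IsFF.exists_param (K := K) (F := F)
  ext v
  rw [divOf_apply, ← GAL.FFExt.pushforward_eq_mapRestrict hy,
    GAL.FFExt.pushforwardNormFormula hy f hf (divOf (K := K) f) (fun w => rfl) v]

theorem ord_norm_eq_sum (v : Place K F) {f : F'} (hf : f ≠ 0) :
    v.ord (Algebra.norm F f) = ∑ w ∈ v.fiber F', w.ord f := by
  obtain ⟨y, hy⟩ := IsFF.exists_param (K := K) (F := F)
  exact GAL.FFExt.ord_norm_eq_sum_fiber' hy v hf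

theorem unitOn_single_iff {L : Type*} [Field L] [Algebra K L] {f : L} {v : Place K L} {n : ℤ}
    (hn : n ≠ 0) : UnitOn f (Finsupp.single v n) ↔ f ≠ 0 ∧ v.ord f = 0 := by
  constructor
  · rintro ⟨h1, h2⟩
    exact ⟨h1, h2 v (by simp [hn])⟩
  · rintro ⟨h1, h2⟩
    refine ⟨h1, fun w hw => ?_⟩
    have := Finsupp.support_single_subset hw
    rw [Finset.mem_singleton] at this
    rw [this]
    exact h2

/-- splitting `UnitOn` along `Finsupp.induction`. -/
theorem unitOn_single_add {L : Type*} [Field L] [Algebra K L] {f : L} {v : Place K L} {n : ℤ}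
    {D : Divisor K L} (hv : v ∉ D.support) (h : UnitOn f (Finsupp.single v n + D)) :
    UnitOn f (Finsupp.single v n) ∧ UnitOn f D := by
  classical
  have hd : Disjoint (Finsupp.single v n).support D.support := by
    rw [Finset.disjoint_left]
    intro w hw hw'
    have := Finsupp.support_single_subset hw
    rw [Finset.mem_singleton] at this
    exact hv (this ▸ hw')
  have hs := Finsupp.support_add_eq hd
  exact ⟨h.mono (by rw [hs]; exact Finset.subset_union_left),
    h.mono (by rw [hs]; exact Finset.subset_union_right)⟩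

theorem unitOn_mapRestrict {g : F} {E : Divisor K F'} (h : UnitOn (algebraMap F F' g) E) :
    UnitOn g (Divisor.mapRestrict F E) := by
  classical
  have hg : g ≠ 0 := fun h0 => h.1 (by rw [h0, map_zero])
  induction E using Finsupp.induction with
  | zero => rw [map_zero]; exact ⟨hg, fun v hv => by simp at hv⟩
  | single_add w n E hw hn ih =>
    obtain ⟨h1, h2⟩ := unitOn_single_add hw h
    rw [map_add, Divisor.mapRestrict_single]
    refine UnitOn.add ?_ (ih h2)
    rw [unitOn_single_iff hn] at h1 ⊢
    refine ⟨hg, ?_⟩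
    have h3 := h1.2
    rw [w.ord_restrict] at h3
    have := w.ramificationIndex_pos (F := F)
    rcases mul_eq_zero.1 h3 with h4 | h4
    · omega
    · exact h4

/-- `g(π_* E) = (π^* g)(E)`. -/
theorem evalDiv_mapRestrict (g : F) (E : Divisor K F') (h : UnitOn (algebraMap F F' g) E) :
    evalDiv g (Divisor.mapRestrict F E) = evalDiv (algebraMap F F' g) E := by
  classical
  induction E using Finsupp.induction with
  | zero => rw [map_zero, evalDiv_zero, evalDiv_zero]
  | single_add w n E hw hn ih =>
    obtain ⟨h1, h2⟩ := unitOn_single_add hw h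
    rw [map_add, evalDiv_add (unitOn_mapRestrict h1) (unitOn_mapRestrict h2), evalDiv_add h1 h2,
      ih h2, Divisor.mapRestrict_single, evalDiv_single, evalDiv_single, val_algebraMap_ext]

theorem unitOn_of_pullback_single {f : F'} {v : Place K F} {n : ℤ} (hn : n ≠ 0)
    (h : UnitOn f (Divisor.pullback F' (Finsupp.single v n))) : ∀ w ∈ v.fiber F', w.ord f = 0 := by
  intro w hw
  apply h.2 w
  rw [Finsupp.mem_support_iff, Divisor.pullback_single_apply_of_restrict_eq (Place.mem_fiber.1 hw)]
  have := w.ramificationIndex_pos (F := F)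
  exact mul_ne_zero hn (by omega)

theorem unitOn_pullback_single_add {f : F'} {v : Place K F} {n : ℤ} {D : Divisor K F}
    (hv : v ∉ D.support) (h : UnitOn f (Divisor.pullback F' (Finsupp.single v n + D))) :
    UnitOn f (Divisor.pullback F' (Finsupp.single v n)) ∧ UnitOn f (Divisor.pullback F' D) := by
  classical
  have key : ∀ w : Place K F', Divisor.pullback F' (Finsupp.single v n) w = 0 ∨
      Divisor.pullback F' D w = 0 := by
    intro w
    by_cases hw : w.restrict F = v
    · right
      rw [Divisor.pullback_apply, hw, Finsupp.notMem_support_iff.1 hv, mul_zero]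
    · left
      exact Divisor.pullback_single_apply_of_restrict_ne hw n
  refine ⟨⟨h.1, fun w hw => h.2 w ?_⟩, ⟨h.1, fun w hw => h.2 w ?_⟩⟩
  · rw [Finsupp.mem_support_iff] at hw ⊢
    rw [map_add, Finsupp.add_apply]
    rcases key w with h1 | h1
    · exact absurd h1 hw
    · rwa [h1, add_zero]
  · rw [Finsupp.mem_support_iff] at hw ⊢
    rw [map_add, Finsupp.add_apply]
    rcases key w with h1 | h1
    · rwa [h1, zero_add]
    · exact absurd h1 hw

theorem unitOn_norm {f : F'} {D : Divisor K F} (h : UnitOn f (Divisor.pullback F' D)) :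
    UnitOn (Algebra.norm F f) D := by
  refine ⟨Algebra.norm_ne_zero_iff.2 h.1, fun v hv => ?_⟩
  rw [ord_norm_eq_sum v h.1]
  refine Finset.sum_eq_zero fun w hw => h.2 w ?_
  rw [Finsupp.mem_support_iff, Divisor.pullback_apply, Place.mem_fiber.1 hw]
  have := w.ramificationIndex_pos (F := F)
  exact mul_ne_zero (by omega) (Finsupp.mem_support_iff.1 hv)

theorem evalDiv_sum_single {L : Type*} [Field L] [Algebra K L] [IsFF K L] {f : L} (hf : f ≠ 0)
    (s : Finset (Place K L)) (m : Place K L → ℤ) (hs : ∀ w ∈ s, w.ord f = 0) :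
    UnitOn f (∑ w ∈ s, Finsupp.single w (m w)) ∧
      evalDiv f (∑ w ∈ s, Finsupp.single w (m w)) = ∏ w ∈ s, val w f ^ m w := by
  classical
  induction s using Finset.induction_on with
  | empty =>
    simp only [Finset.sum_empty, Finset.prod_empty]
    exact ⟨⟨hf, fun v hv => by simp at hv⟩, evalDiv_zero f⟩
  | insert a s ha ih =>
    obtain ⟨i1, i2⟩ := ih fun w hw => hs w (Finset.mem_insert_of_mem hw)
    have h1 : UnitOn f (Finsupp.single a (m a)) := by
      refine ⟨hf, fun v hv => ?_⟩
      have := Finsupp.support_single_subset hv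
      rw [Finset.mem_singleton] at this
      rw [this]
      exact hs a (Finset.mem_insert_self a s)
    rw [Finset.sum_insert ha, Finset.prod_insert ha]
    exact ⟨h1.add i1, by rw [evalDiv_add h1 i1, i2, evalDiv_single]⟩

/-- `f(π^* D) = (N f)(D)`. -/
theorem evalDiv_pullback {f : F'} (D : Divisor K F) (h : UnitOn f (Divisor.pullback F' D)) :
    evalDiv f (Divisor.pullback F' D) = evalDiv (Algebra.norm F f) D := by
  classical
  induction D using Finsupp.induction with
  | zero => rw [map_zero, evalDiv_zero, evalDiv_zero]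
  | single_add v n D hv hn ih =>
    obtain ⟨h1, h2⟩ := unitOn_pullback_single_add hv h
    rw [map_add, evalDiv_add h1 h2, evalDiv_add (unitOn_norm h1) (unitOn_norm h2), ih h2]
    congr 1
    have h3 := unitOn_of_pullback_single hn h1
    rw [Divisor.pullback_single, (evalDiv_sum_single h.1 _ _ h3).2, evalDiv_single,
      val_norm v h.1 h3, ← Finset.prod_zpow]
    refine Finset.prod_congr rfl fun w _ => ?_
    rw [mul_comm, zpow_mul, zpow_natCast]

end Ext

variable {K F : Type*} [Field K] [Field F] [Algebra K F] [IsAlgClosed K] [CharZero K] [IsFF K F]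

/-- **Weil reciprocity.** -/
theorem weil_reciprocity {f g : F} (hf : f ≠ 0) (hg : g ≠ 0)
    (hdisj : Disjoint (divOf (K := K) f).support (divOf (K := K) g).support) :
    evalDiv f (divOf (K := K) g) = evalDiv g (divOf (K := K) f) := by
  classical
  by_cases hgc : g ∈ Set.range (algebraMap K F)
  · obtain ⟨c, rfl⟩ := hgc
    rw [divOf_algebraMap, evalDiv_zero, evalDiv_algebraMap (by simpa using hg), degree_divOf hf,
      zpow_zero]
  obtain ⟨y, hy⟩ := IsFF.exists_param (K := K) (F := F)
  have hgp : IsFiniteParam K g := hy.of_not_mem_range hgc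
  -- the field `E = K(g)` and its generator
  let t : K⟮g⟯ := IntermediateField.AdjoinSimple.gen K g
  have htg : algebraMap K⟮g⟯ F t = g := IntermediateField.AdjoinSimple.algebraMap_gen K g
  have ht : Transcendental K t :=
    (transcendental_algebraMap_iff (algebraMap K⟮g⟯ F).injective).1 (htg.symm ▸ hgp.transcendental)
  have htop : K⟮t⟯ = ⊤ := by
    apply IntermediateField.lift_injective
    rw [IntermediateField.lift_adjoin_simple, IntermediateField.lift_top]
    rfl
  have : FiniteDimensional K⟮g⟯ F := hgp.finite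
  have : IsFF K K⟮g⟯ := ⟨t, ht, by
    rw [htop]
    exact FiniteDimensional.of_finrank_eq_succ (n := 0) IntermediateField.finrank_top⟩
  have hu1 : UnitOn f (divOf (K := K) g) := (unitOn_iff_disjoint hf _).2 hdisj
  have hu2 : UnitOn g (divOf (K := K) f) := (unitOn_iff_disjoint hg _).2 hdisj.symm
  have e1 : divOf (K := K) g = Divisor.pullback F (divOf (K := K) t) := by
    rw [← divOf_algebraMap_ext, htg]
  have hN : Algebra.norm K⟮g⟯ f ≠ 0 := Algebra.norm_ne_zero_iff.2 hf
  have hu3 : UnitOn (Algebra.norm K⟮g⟯ f) (divOf (K := K) t) := unitOn_norm (e1 ▸ hu1)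
  calc evalDiv f (divOf (K := K) g)
      = evalDiv f (Divisor.pullback F (divOf (K := K) t)) := by rw [e1]
    _ = evalDiv (Algebra.norm K⟮g⟯ f) (divOf (K := K) t) := evalDiv_pullback _ (e1 ▸ hu1)
    _ = evalDiv t (divOf (K := K) (Algebra.norm K⟮g⟯ f)) :=
        recip_gen t ht htop _ hN ((unitOn_iff_disjoint hN _).1 hu3)
    _ = evalDiv t (Divisor.mapRestrict K⟮g⟯ (divOf (K := K) f)) := by rw [divOf_norm hf]
    _ = evalDiv (algebraMap K⟮g⟯ F t) (divOf (K := K) f) :=
        evalDiv_mapRestrict t _ (htg.symm ▸ hu2)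
    _ = evalDiv g (divOf (K := K) f) := by rw [htg]

end Fermat.Agent.S19
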