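import Fermat.Agent.S27.Pic
import Fermat.Agent.GAL.FFExt
import Fermat.Prelude.Def_AlgebraicCurve_BaseChangeGalois

/-!
# S19 / part B : the Weil pairing on `Pic0 K F`, definitions

Everything is built on the S27 API (`IsFF`, `val`, `divOf`, `dcl`, `exists_approx`, ...).
-/

set_option autoImplicit false

open AlgebraicCurve

namespace Fermat.Agent.S19

open Fermat.Agent.S27

variable {K F : Type*} [Field K] [Field F] [Algebra K F]

/-- `f(D) = ∏_v f(v) ^ (D v)`. -/
noncomputable def evalDiv (f : F) (D : Divisor K F) : K :=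
  D.prod fun v n => val v f ^ n

/-- `f` has neither a zero nor a pole on the support of `D`. -/
def UnitOn (f : F) (D : Divisor K F) : Prop :=
  f ≠ 0 ∧ ∀ v ∈ D.support, v.ord f = 0

variable [IsAlgClosed K] [CharZero K] [IsFF K F]

instance instHPD : HasPrincipalDivisors K F := Fermat.Agent.S27.hasPrincipalDivisors K F

/-- `ζ = f_x(D_y) / f_y(D_x)` for some admissible choice of `D_x, D_y, f_x, f_y`. -/
def IsWeil (m : ℕ) (x y : Pic0 K F) (ζ : K) : Prop :=
  ∃ (D E : Divisor K F) (f g : F), Divisor.degree D = 0 ∧ Divisor.degree E = 0 ∧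
    dcl D = x ∧ dcl E = y ∧ Disjoint D.support E.support ∧ f ≠ 0 ∧ g ≠ 0 ∧
    divOf (K := K) f = m • D ∧ divOf (K := K) g = m • E ∧ ζ = evalDiv f E / evalDiv g D

open Classical in
/-- the Weil pairing `e_m` (junk value `1` outside the `m`-torsion). -/
noncomputable def weil (m : ℕ) (x y : Pic0 K F) : K :=
  if h : ∃ ζ, IsWeil m x y ζ then h.choose else 1

end Fermat.Agent.S19
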