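import Fermat.Agent.S19.B.Pairing

/-!
# S19 / B3a : non-degeneracy of `e_ℓ`, `ℓ` prime

`x ≠ 0`, `ℓ x = 0`, `x = [D]`, `ℓ D = div f`.  `f` is not an `ℓ`-th power in `F` (otherwise
`D = div h`).  `F' = F(h) = AdjoinRoot (X^ℓ - C f)`, `τ h = ζ h`, `ζ ≠ 1`; `IsFF K F'`
(`GAL.FFExt.isFiniteParam_algebraMap`).

Proof as formalised (`kummer_core`; no fixed-place / orbit argument is needed):
1. `div h = π^* D` (both sides multiplied by `ℓ` are `div (π^* f)`).
2. Take a place `Q` of `F'` with `Q, τ Q ∉ supp (div h)`.  By divisibility of `Pic0 K F'` and the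
   moving lemma: `τ Q - Q = ℓ E + div w`, `deg E = 0`, `supp E` disjoint from `supp (div h)`.
   `y := [π_* E]`; `ℓ π_* E = div (N w)⁻¹` because `π_* (τ Q - Q) = 0`.
3. `e_ℓ(x, y) = f(π_* E) * (N w)(D) = h(E)^ℓ * w(π^* D) = h(ℓ E) * w(div h)
   = h(ℓ E) * h(div w) = h(τ Q - Q) = ζ⁻¹ ≠ 1`, using `evalDiv_mapRestrict`, `evalDiv_pullback`
   and Weil reciprocity on `F'`.
-/

set_option autoImplicit false
set_option linter.unusedSectionVars false

open AlgebraicCurve

namespace Fermat.Agent.S19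

open Fermat.Agent.S27

section Core

variable {K F F' : Type*} [Field K] [Field F] [Field F'] [Algebra K F] [Algebra K F']
  [Algebra F F'] [IsScalarTower K F F']

/-- an `F`-automorphism of `F'` permutes the places above a given place of `F`. -/
theorem restrict_smul_ofAlgAut [Algebra.IsIntegral F F'] (τ : F' ≃ₐ[F] F') (w : Place K F') :
    ((SemilinearAut.ofAlgAut (τ.restrictScalars K)) • w).restrict F = w.restrict F := by
  apply Place.ext
  ext a
  rw [Place.restrict_toValuationSubring, Place.restrict_toValuationSubring,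
    ValuationSubring.mem_comap, ValuationSubring.mem_comap,
    SemilinearAut.smul_toValuationSubring, ValuationSubring.mem_pointwise_smul_iff_inv_smul_mem]
  have : (SemilinearAut.ofAlgAut (τ.restrictScalars K))⁻¹ • algebraMap F F' a =
      algebraMap F F' a := by
    rw [inv_smul_eq_iff, SemilinearAut.ofAlgAut_smul]
    exact (τ.commutes a).symm
  rw [this]

theorem support_mapRestrict_subset [Algebra.IsIntegral F F'] [DecidableEq (Place K F)]
    (E : Divisor K F') :
    (Divisor.mapRestrict F E).support ⊆ E.support.image (fun w => w.restrict F) :=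
  Finsupp.mapDomain_support (f := fun w : Place K F' => w.restrict F) (s := E)

theorem dcl_nsmul {D : Divisor K F} (hD : Divisor.degree D = 0) (n : ℕ) :
    dcl (n • D) = n • dcl D := by
  induction n with
  | zero => rw [zero_nsmul, zero_nsmul, dcl_zero]
  | succ n ih =>
    rw [succ_nsmul, succ_nsmul, dcl_add (by rw [map_nsmul, hD, smul_zero]) hD, ih]

end Core

section Core2

variable {K F F' : Type*} [Field K] [Field F] [Field F'] [Algebra K F] [Algebra K F']
  [Algebra F F'] [IsScalarTower K F F'] [IsAlgClosed K] [CharZero K] [IsFF K F] [IsFF K F']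
  [FiniteDimensional F F']

theorem degree_mapRestrict (E : Divisor K F') :
    Divisor.degree (Divisor.mapRestrict F E) = Divisor.degree E := by
  obtain ⟨y, hy⟩ := IsFF.exists_param (K := K) (F := F)
  rw [← GAL.FFExt.pushforward_eq_mapRestrict hy E, Divisor.degree_pushforward]

theorem unitOn_single {f : F} (hf : f ≠ 0) {v : Place K F} (h : v.ord f = 0) (n : ℤ) :
    UnitOn f (Finsupp.single v n : Divisor K F) := by
  refine ⟨hf, fun w hw => ?_⟩
  have := Finsupp.support_single_subset hw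
  rw [Finset.mem_singleton] at this
  rw [this, h]

/-- the core computation: `e_ℓ([D], [π_* E]) = h(τ Q) / h(Q) = ζ⁻¹`. -/
theorem kummer_core {ℓ : ℕ} (hℓ : 0 < ℓ) {D : Divisor K F} (hD : Divisor.degree D = 0) {f : F}
    (hf : f ≠ 0) (hfD : divOf (K := K) f = ℓ • D) {h : F'} (hh : h ^ ℓ = algebraMap F F' f)
    (τ : F' ≃ₐ[F] F') {ζ : K} (hζ0 : ζ ≠ 0) (hζ1 : ζ ≠ 1) (hτ : τ h = algebraMap K F' ζ * h)
    (hdiv : ∀ z : Pic0 K F', ∃ w : Pic0 K F', ℓ • w = z) :
    ∃ y : Pic0 K F, ℓ • y = 0 ∧ weil ℓ (dcl D) y ≠ 1 := by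
  classical
  have hh0 : h ≠ 0 := by
    rintro rfl
    rw [zero_pow hℓ.ne'] at hh
    exact hf ((map_eq_zero _).1 hh.symm)
  obtain ⟨g, hg⟩ : ∃ g : SemilinearAut K F', g = SemilinearAut.ofAlgAut (τ.restrictScalars K) :=
    ⟨_, rfl⟩
  have hgh : g • h = algebraMap K F' ζ * h := by
    rw [hg, SemilinearAut.ofAlgAut_smul]
    exact hτ
  have hgbase : SemilinearAut.baseAut g = 1 := by rw [hg, SemilinearAut.baseAut_ofAlgAut]
  -- `div h = π^* D`
  have hdivh : divOf (K := K) h = Divisor.pullback F' D := by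
    have h1 : ℓ • divOf (K := K) h = ℓ • Divisor.pullback F' D := by
      rw [← divOf_pow, hh, divOf_algebraMap_ext, hfD, map_nsmul]
    exact (smul_right_injective (Divisor K F') hℓ.ne') h1
  -- the place `Q`
  have := infinite_places (K := K) (F := F')
  obtain ⟨Q, hQ⟩ := Infinite.exists_notMem_finset
    ((divOf (K := K) h).support ∪ (divOf (K := K) h).support.image (g⁻¹ • ·))
  rw [Finset.mem_union, not_or] at hQ
  have hQ1 : Q.ord h = 0 := by
    have := hQ.1
    rwa [Finsupp.mem_support_iff, not_not, divOf_apply] at this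
  have hQ2 : (g • Q).ord h = 0 := by
    have h1 : g • Q ∉ (divOf (K := K) h).support := fun h2 =>
      hQ.2 (Finset.mem_image.2 ⟨g • Q, h2, inv_smul_smul g Q⟩)
    rwa [Finsupp.mem_support_iff, not_not, divOf_apply] at h1
  obtain ⟨A, hA⟩ : ∃ A : Divisor K F', A = Finsupp.single (g • Q) 1 - Finsupp.single Q 1 :=
    ⟨_, rfl⟩
  have hA0 : Divisor.degree A = 0 := by rw [hA, degree_single_sub_single]
  -- the divisor `E`
  obtain ⟨e, he⟩ := hdiv (dcl A)
  obtain ⟨E, hE0, hEe, hEdisj⟩ := exists_dcl_eq_disjoint e (divOf (K := K) h).support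
  have hℓE0 : Divisor.degree (ℓ • E) = 0 := by rw [map_nsmul, hE0, smul_zero]
  have hcl : dcl (A - ℓ • E) = 0 := by
    rw [dcl_sub hA0 hℓE0, dcl_nsmul hE0, hEe, he, sub_self]
  rw [dcl_eq_zero_iff (by rw [map_sub, hA0, hℓE0, sub_zero]), mem_principal_iff] at hcl
  obtain ⟨w, hw0, hw⟩ := hcl
  -- push forward
  obtain ⟨E₀, hE₀⟩ : ∃ E₀ : Divisor K F, E₀ = Divisor.mapRestrict F E := ⟨_, rfl⟩
  have hE₀deg : Divisor.degree E₀ = 0 := by rw [hE₀, degree_mapRestrict, hE0]
  have hAres : Divisor.mapRestrict F A = 0 := by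
    rw [hA, map_sub, Divisor.mapRestrict_single, Divisor.mapRestrict_single, hg,
      restrict_smul_ofAlgAut, sub_self]
  have hN0 : Algebra.norm F w ≠ 0 := Algebra.norm_ne_zero_iff.2 hw0
  have hN : divOf (K := K) (Algebra.norm F w) = -(ℓ • E₀) := by
    rw [divOf_norm hw0, ← hw, map_sub, hAres, map_nsmul, zero_sub, hE₀]
  have hg₀ : divOf (K := K) (Algebra.norm F w)⁻¹ = ℓ • E₀ := by
    rw [divOf_inv, hN, neg_neg]
  -- disjointness
  have hmem : ∀ w' : Place K F', w'.restrict F ∈ D.support →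
      w' ∈ (divOf (K := K) h).support := by
    intro w' hw'
    rw [hdivh, Finsupp.mem_support_iff, Divisor.pullback_apply]
    have h1 : 0 < w'.ramificationIndex F := w'.ramificationIndex_pos
    exact mul_ne_zero (by exact_mod_cast h1.ne') (Finsupp.mem_support_iff.1 hw')
  have hdisj : Disjoint D.support E₀.support := by
    rw [Finset.disjoint_left]
    intro v hv hv'
    rw [hE₀] at hv'
    obtain ⟨w', hw', rfl⟩ := Finset.mem_image.1 (support_mapRestrict_subset E hv')
    exact Finset.disjoint_left.1 hEdisj hw' (hmem w' hv)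
  -- units
  have U1 : UnitOn h E := (unitOn_iff_disjoint hh0 E).2 hEdisj.symm
  have U2a : UnitOn h (Finsupp.single (g • Q) 1 : Divisor K F') := unitOn_single hh0 hQ2 1
  have U2b : UnitOn h (Finsupp.single Q 1 : Divisor K F') := unitOn_single hh0 hQ1 1
  have U2 : UnitOn h A := by
    rw [hA]
    exact U2a.sub U2b
  have U3 : UnitOn (algebraMap F F' f) E := by
    rw [← hh]
    exact U1.pow ℓ
  have hwh : Disjoint (divOf (K := K) w).support (divOf (K := K) h).support := by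
    have h1 : UnitOn h (divOf (K := K) w) := by
      rw [← hw]
      exact U2.sub (U1.nsmul ℓ)
    exact ((unitOn_iff_disjoint hh0 _).1 h1).symm
  have U4 : UnitOn w (Divisor.pullback F' D) := by
    rw [← hdivh]
    exact (unitOn_iff_disjoint hw0 _).2 hwh
  have U5 : UnitOn (Algebra.norm F w) D := by
    refine ⟨hN0, fun v hv => ?_⟩
    rw [← divOf_apply (K := K), hN, Finsupp.neg_apply, Finsupp.smul_apply,
      Finsupp.notMem_support_iff.1 (Finset.disjoint_left.1 hdisj hv), smul_zero, neg_zero]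
  -- the computation
  have c1 : evalDiv f E₀ = evalDiv h E ^ ℓ := by
    rw [hE₀, evalDiv_mapRestrict f E U3, ← hh, evalDiv_pow U1]
  have c3 : evalDiv (Algebra.norm F w) D = evalDiv h A / evalDiv h E ^ ℓ := by
    rw [← evalDiv_pullback D U4, ← hdivh, weil_reciprocity hw0 hh0 hwh, ← hw,
      evalDiv_sub U2 (U1.nsmul ℓ), evalDiv_nsmul U1]
  have hvQ : val Q h ≠ 0 := val_ne_zero_of_ord_eq_zero hh0 hQ1
  have c5 : val (g • Q) h = ζ⁻¹ * val Q h := by
    have h1 : g • (algebraMap K F' ζ⁻¹ * h) = h := by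
      rw [smul_mul', hgh, SemilinearAut.smul_algebraMap, hgbase, ← mul_assoc, RingAut.one_apply,
        ← map_mul, inv_mul_cancel₀ hζ0, map_one, one_mul]
    have h2 := val_smul g Q (algebraMap K F' ζ⁻¹ * h)
    rw [h1, hgbase, RingAut.one_apply, val_mul Q (adic_algebraMap Q (inv_ne_zero hζ0)).le
      (adic_eq_one_of_ord_eq_zero hh0 hQ1).le, val_algebraMap] at h2
    exact h2
  have c4 : evalDiv h A = ζ⁻¹ := by
    rw [hA, evalDiv_sub U2a U2b, evalDiv_single, evalDiv_single, zpow_one, zpow_one, c5,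
      mul_div_assoc, div_self hvQ, mul_one]
  have hE1 : evalDiv h E ^ ℓ ≠ 0 := pow_ne_zero _ (evalDiv_ne_zero U1)
  have hW : IsWeil ℓ (dcl D) (dcl E₀) ζ⁻¹ := by
    refine ⟨D, E₀, f, (Algebra.norm F w)⁻¹, hD, hE₀deg, rfl, rfl, hdisj, hf, inv_ne_zero hN0, hfD,
      hg₀, ?_⟩
    rw [c1, evalDiv_inv U5, c3, c4]
    field_simp
  refine ⟨dcl E₀, ?_, ?_⟩
  · rw [← dcl_nsmul hE₀deg, ← hg₀, dcl_eq_zero_iff (degree_divOf (inv_ne_zero hN0)),
      mem_principal_iff]
    exact ⟨_, inv_ne_zero hN0, rfl⟩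
  · rw [hW.weil_eq]
    intro h1
    exact hζ1 (inv_eq_one.1 h1)

end Core2

universe u v

variable {K : Type u} {F : Type v} [Field K] [Field F] [Algebra K F] [IsAlgClosed K] [CharZero K]
  [IsFF K F]

open Polynomial in
theorem exists_weil_ne_one_of_prime {ℓ : ℕ} (hℓ : ℓ.Prime)
    (hdiv : ∀ (F' : Type v) [Field F'] [Algebra K F'] [IsFF K F'] (z : Pic0 K F'),
      ∃ w : Pic0 K F', ℓ • w = z)
    {x : Pic0 K F} (hx : ℓ • x = 0) (hx0 : x ≠ 0) :
    ∃ y : Pic0 K F, ℓ • y = 0 ∧ weil ℓ x y ≠ 1 := by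
  obtain ⟨D, hD, rfl⟩ := dcl_surjective x
  have hℓD : Divisor.degree (ℓ • D) = 0 := by rw [map_nsmul, hD, smul_zero]
  rw [← dcl_nsmul hD, dcl_eq_zero_iff hℓD, mem_principal_iff] at hx
  obtain ⟨f, hf, hfD⟩ := hx
  -- `f` is not an `ℓ`-th power
  have hpow : ∀ b : F, b ^ ℓ ≠ f := by
    intro b hb
    apply hx0
    have hb0 : b ≠ 0 := by
      rintro rfl
      rw [zero_pow hℓ.ne_zero] at hb
      exact hf hb.symm
    have h1 : ℓ • D = ℓ • divOf (K := K) b := by rw [hfD, ← hb, divOf_pow]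
    have h2 : D = divOf (K := K) b := (smul_right_injective (Divisor K F) hℓ.ne_zero) h1
    rw [dcl_eq_zero_iff hD, mem_principal_iff]
    exact ⟨b, hb0, h2⟩
  have hirr : Irreducible (X ^ ℓ - C f) := X_pow_sub_C_irreducible_of_prime hℓ hpow
  have : Fact (Irreducible (X ^ ℓ - C f)) := ⟨hirr⟩
  have : NeZero ℓ := ⟨hℓ.ne_zero⟩
  have : FiniteDimensional F (AdjoinRoot (X ^ ℓ - C f)) :=
    (monic_X_pow_sub_C f hℓ.ne_zero).finite_adjoinRoot
  have : IsFF K (AdjoinRoot (X ^ ℓ - C f)) := by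
    obtain ⟨y, hy⟩ := IsFF.exists_param (K := K) (F := F)
    exact ⟨_, GAL.FFExt.isFiniteParam_algebraMap hy⟩
  obtain ⟨ζ, hζ⟩ := HasEnoughRootsOfUnity.exists_primitiveRoot K ℓ
  have hζ1 : ζ ≠ 1 := hζ.ne_one hℓ.one_lt
  have hζ0 : ζ ≠ 0 := hζ.ne_zero hℓ.ne_zero
  have hζF : (algebraMap K F ζ) ^ ℓ = 1 := by rw [← map_pow, hζ.pow_eq_one, map_one]
  refine kummer_core (F' := AdjoinRoot (X ^ ℓ - C f)) hℓ.pos hD hf hfD.symm
    (h := AdjoinRoot.root _) (root_X_pow_sub_C_pow ℓ f)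
    (autAdjoinRootXPowSubC ℓ f (rootsOfUnity.mkOfPowEq _ hζF)) hζ0 hζ1 ?_
    (hdiv (AdjoinRoot (X ^ ℓ - C f)))
  rw [autAdjoinRootXPowSubC_root, rootsOfUnity.coe_mkOfPowEq, Algebra.smul_def,
    ← IsScalarTower.algebraMap_apply]

end Fermat.Agent.S19
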