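import Fermat.Agent.S19.B.Defs

/-!
# S19 / B1a : the value of a norm

`F'/F` a finite extension of function fields over `K` (algebraically closed, characteristic `0`),
`v` a place of `F`, `f : F'` a unit at all places above `v`.  Then
`(N f)(v) = ∏_{w ∣ v} f(w) ^ e(w ∣ v)`.

Proof (place level only, uses `ord (N g) = ∑_{w ∣ v} ord_w g` and `∑ e_w = [F' : F]`).
* If `g` is regular above `v`, then `chi_g (c) = N (c - g)` is regular at `v` for all constants `c`,
  so by Lagrange interpolation the characteristic polynomial `chi_g` has coefficients regular at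
  `v`; let `red v chi_g : K[X]` be its reduction.  Its roots are values `g(w)`.
* If `u(w) = 1` for all `w ∣ v`, the only root of the reduction of `chi_{-u}` is `-1`: `(N u)(v) = 1`.
* If the values `c w = g(w)` are pairwise distinct and `g - c w` is a uniformiser at `w`, then
  Cayley-Hamilton gives `ord_w (red chi_g (g)) ≥ e_w`, i.e. `(X - c w)^(e_w) ∣ red chi_g`; comparing
  degrees, `red chi_g = ∏ (X - c w)^(e_w)`.
* The general case follows by multiplicativity: `f = u * h / g` with `g`, `h` special, `u ≡ 1`.
-/

set_option autoImplicit false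
set_option linter.unusedSectionVars false

open AlgebraicCurve Polynomial WithZero

namespace Fermat.Agent.S19

open Fermat.Agent.S27 Fermat.Agent.S24

namespace VN

section Single

variable {K F : Type*} [Field K] [Field F] [Algebra K F]

theorem val_zero' (v : Place K F) : val v (0 : F) = 0 := by
  have := val_algebraMap v (0 : K)
  rwa [map_zero] at this

/-- coefficientwise reduction of a polynomial at a place. -/
noncomputable def red (v : Place K F) (p : F[X]) : K[X] :=
  ∑ i ∈ Finset.range (p.natDegree + 1), monomial i (val v (p.coeff i))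

theorem coeff_red (v : Place K F) (p : F[X]) (i : ℕ) : (red v p).coeff i = val v (p.coeff i) := by
  unfold red
  rw [finsetSum_coeff]
  simp only [coeff_monomial]
  rw [Finset.sum_ite_eq']
  split_ifs with h
  · rfl
  · rw [Finset.mem_range, not_lt] at h
    rw [coeff_eq_zero_of_natDegree_lt (by omega), val_zero']

theorem map_basis {ι : Type*} [DecidableEq ι] (s : Finset ι) (c : ι → K) (i : ι) :
    (Lagrange.basis s c i).map (algebraMap K F) =
      Lagrange.basis s (fun j => algebraMap K F (c j)) i := by
  simp [Lagrange.basis, Lagrange.basisDivisor, Polynomial.map_prod]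

theorem adic_coeff_le_one_of_eval [CharZero K] (v : Place K F) (p : F[X])
    (h : ∀ c : K, v.adicValuation (p.eval (algebraMap K F c)) ≤ 1) (i : ℕ) :
    v.adicValuation (p.coeff i) ≤ 1 := by
  classical
  set s := Finset.range (p.natDegree + 1) with hs
  have hinj : Set.InjOn (fun j : ℕ => algebraMap K F (j : K)) (s : Set ℕ) := by
    intro a _ b _ hab
    exact Nat.cast_injective ((algebraMap K F).injective hab)
  have hdeg : p.degree < s.card := by
    rw [hs, Finset.card_range]
    exact lt_of_le_of_lt degree_le_natDegree (by exact_mod_cast Nat.lt_succ_self _)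
  have h1 := Lagrange.eq_interpolate hinj hdeg
  rw [h1, Lagrange.interpolate_apply, finsetSum_coeff]
  apply Valuation.map_sum_le
  intro j _
  rw [← map_basis, coeff_C_mul, coeff_map, map_mul]
  exact mul_le_one' (h _) (v.adicValuation_algebraMap_le_one _)

end Single


section SingleFF

variable {K F : Type*} [Field K] [Field F] [Algebra K F] [IsAlgClosed K] [CharZero K] [IsFF K F]

/-- the error term of the reduction has coefficients in the maximal ideal. -/
theorem adic_coeff_sub_red (v : Place K F) {p : F[X]} (hp : ∀ i, v.adicValuation (p.coeff i) ≤ 1)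
    (i : ℕ) : v.adicValuation ((p - (red v p).map (algebraMap K F)).coeff i) < 1 := by
  rw [coeff_sub, coeff_map, coeff_red]
  exact val_spec v (hp i)

theorem val_eval (v : Place K F) {p : F[X]} (hp : ∀ i, v.adicValuation (p.coeff i) ≤ 1) (c : K) :
    val v (p.eval (algebraMap K F c)) = (red v p).eval c := by
  apply val_unique
  have h1 : algebraMap K F ((red v p).eval c) =
      ((red v p).map (algebraMap K F)).eval (algebraMap K F c) := by
    rw [eval_map_algebraMap, aeval_algebraMap_apply_eq_algebraMap_eval]
  rw [h1, ← eval_sub, eval_eq_sum_range]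
  apply Valuation.map_sum_lt _ one_ne_zero
  intro i _
  rw [map_mul, map_pow]
  exact lt_of_le_of_lt (mul_le_of_le_one_right' (pow_le_one' (v.adicValuation_algebraMap_le_one c) _))
    (adic_coeff_sub_red v hp i)

theorem adic_eq_one_of_val_ne_zero (v : Place K F) {f : F} (hf : v.adicValuation f ≤ 1)
    (h : val v f ≠ 0) : v.adicValuation f = 1 := by
  refine le_antisymm hf (not_lt.1 fun h1 => h ((val_eq_zero_iff v hf).2 h1))

theorem val_ne_zero_of_adic_eq_one (v : Place K F) {f : F} (hf : v.adicValuation f = 1) :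
    val v f ≠ 0 := by
  intro h
  have := (val_eq_zero_iff v hf.le).1 h
  rw [hf] at this
  exact lt_irrefl _ this

theorem adic_eq_one_iff_ord (v : Place K F) {f : F} (hf : f ≠ 0) :
    v.adicValuation f = 1 ↔ v.ord f = 0 := by
  rw [v.adicValuation_eq_exp_neg_ord hf, ← exp_zero, exp_inj]
  omega

end SingleFF

section Ext

variable {K F F' : Type*} [Field K] [Field F] [Field F'] [Algebra K F] [Algebra K F']
  [Algebra F F'] [IsScalarTower K F F'] [IsAlgClosed K] [CharZero K] [IsFF K F] [IsFF K F']
  [FiniteDimensional F F']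

theorem ord_norm (v : Place K F) {g : F'} (hg : g ≠ 0) :
    v.ord (Algebra.norm F g) = ∑ w ∈ v.fiber F', w.ord g := by
  obtain ⟨y, hy⟩ := IsFF.exists_param (K := K) (F := F)
  exact GAL.FFExt.ord_norm_eq_sum_fiber' hy v hg

theorem sum_ram (v : Place K F) :
    ∑ w ∈ v.fiber F', w.ramificationIndex F = Module.finrank F F' := by
  obtain ⟨y, hy⟩ := IsFF.exists_param (K := K) (F := F)
  have := GAL.FFExt.sum_ramificationIndex (F' := F') hy v
  exact_mod_cast this

theorem adic_norm_le_one (v : Place K F) {g : F'} (hg : ∀ w ∈ v.fiber F', w.adicValuation g ≤ 1) :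
    v.adicValuation (Algebra.norm F g) ≤ 1 := by
  rcases eq_or_ne g 0 with rfl | h0
  · simp
  rw [v.adicValuation_le_one_iff, ord_norm v h0]
  right
  apply Finset.sum_nonneg
  intro w hw
  exact ((w.adicValuation_le_one_iff).1 (hg w hw)).resolve_left h0

theorem adic_norm_eq_one (v : Place K F) {g : F'} (hg : ∀ w ∈ v.fiber F', w.adicValuation g = 1) :
    v.adicValuation (Algebra.norm F g) = 1 := by
  rcases eq_or_ne g 0 with rfl | h0
  · exfalso
    obtain ⟨y, hy⟩ := IsFF.exists_param (K := K) (F := F)
    obtain ⟨w, hw⟩ := GAL.FFExt.fiber_nonempty (F' := F') hy v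
    simpa using hg w hw
  rw [adic_eq_one_iff_ord v (Algebra.norm_ne_zero_iff.2 h0), ord_norm v h0]
  apply Finset.sum_eq_zero
  intro w hw
  exact (adic_eq_one_iff_ord w h0).1 (hg w hw)

/-- the characteristic polynomial of multiplication by `g`. -/
noncomputable def chi (F : Type*) {F' : Type*} [Field F] [Field F'] [Algebra F F']
    [FiniteDimensional F F'] (g : F') : F[X] :=
  (Algebra.lmul F F' g).charpoly

theorem eval_chi (g : F') (t : F) : (chi F g).eval t = Algebra.norm F (algebraMap F F' t - g) := by
  unfold chi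
  rw [LinearMap.eval_charpoly, Algebra.norm_apply]
  congr 1
  ext x
  simp [Algebra.smul_def]

theorem norm_eq_eval_chi (g : F') : Algebra.norm F g = (chi F (-g)).eval 0 := by
  rw [eval_chi]
  simp

theorem aeval_chi (g : F') : aeval g (chi F g) = 0 := by
  have h := LinearMap.aeval_self_charpoly (Algebra.lmul F F' g)
  rw [aeval_algHom_apply] at h
  exact Algebra.lmul_injective (R := F) (by rw [map_zero]; exact h)

theorem chi_monic (g : F') : (chi F g).Monic := LinearMap.charpoly_monic _

theorem chi_natDegree (g : F') : (chi F g).natDegree = Module.finrank F F' :=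
  LinearMap.charpoly_natDegree _

theorem adic_coeff_chi (v : Place K F) {g : F'} (hg : ∀ w ∈ v.fiber F', w.adicValuation g ≤ 1)
    (i : ℕ) : v.adicValuation ((chi F g).coeff i) ≤ 1 := by
  apply adic_coeff_le_one_of_eval (K := K)
  intro c
  rw [eval_chi]
  apply adic_norm_le_one
  intro w hw
  rw [← IsScalarTower.algebraMap_apply]
  exact (Valuation.map_sub _ _ _).trans (max_le (w.adicValuation_algebraMap_le_one c) (hg w hw))

theorem red_chi_monic (v : Place K F) (g : F') : (red v (chi F g)).Monic := by
  apply monic_of_natDegree_le_of_coeff_eq_one (Module.finrank F F')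
  · rw [natDegree_le_iff_coeff_eq_zero]
    intro N hN
    rw [coeff_red, coeff_eq_zero_of_natDegree_lt (by rwa [chi_natDegree]), val_zero']
  · rw [coeff_red, ← chi_natDegree g, (chi_monic g).coeff_natDegree, val_one]

theorem red_chi_natDegree (v : Place K F) (g : F') :
    (red v (chi F g)).natDegree = Module.finrank F F' := by
  apply natDegree_eq_of_le_of_coeff_ne_zero
  · rw [natDegree_le_iff_coeff_eq_zero]
    intro N hN
    rw [coeff_red, coeff_eq_zero_of_natDegree_lt (by rwa [chi_natDegree]), val_zero']
  · rw [coeff_red, ← chi_natDegree g, (chi_monic g).coeff_natDegree, val_one]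
    exact one_ne_zero


theorem adic_algebraMap_le (v : Place K F) {w : Place K F'} (hw : w ∈ v.fiber F') {a : F}
    (ha : v.adicValuation a < 1) :
    w.adicValuation (algebraMap F F' a) ≤ exp (-(w.ramificationIndex F : ℤ)) := by
  rw [w.adicValuation_le_exp_iff]
  rcases eq_or_ne a 0 with rfl | h0
  · left; simp
  right
  rw [neg_neg, w.ord_restrict, Place.mem_fiber.1 hw]
  have h1 : 0 < v.ord a := ((adic_lt_one_iff_ord v).1 ha).resolve_left h0
  nlinarith [Int.natCast_nonneg (w.ramificationIndex F)]

theorem adic_aeval_le (v : Place K F) {w : Place K F'} (hw : w ∈ v.fiber F') {E : F[X]}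
    (hE : ∀ i, v.adicValuation (E.coeff i) < 1) {x : F'} (hx : w.adicValuation x ≤ 1) :
    w.adicValuation (aeval x E) ≤ exp (-(w.ramificationIndex F : ℤ)) := by
  rw [aeval_eq_sum_range]
  apply Valuation.map_sum_le
  intro i _
  rw [Algebra.smul_def, map_mul, map_pow]
  exact (mul_le_of_le_one_right' (pow_le_one' hx _)).trans (adic_algebraMap_le v hw (hE i))

/-- Cayley-Hamilton modulo `v`. -/
theorem adic_aeval_red_chi (v : Place K F) {g : F'}
    (hg : ∀ w ∈ v.fiber F', w.adicValuation g ≤ 1) {w : Place K F'} (hw : w ∈ v.fiber F') :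
    w.adicValuation (aeval g (red v (chi F g))) ≤ exp (-(w.ramificationIndex F : ℤ)) := by
  have h1 := adic_aeval_le v hw (adic_coeff_sub_red v (adic_coeff_chi v hg)) (hg w hw)
  rwa [map_sub, aeval_chi, zero_sub, Valuation.map_neg, aeval_map_algebraMap] at h1

theorem eval_red_chi (v : Place K F) {g : F'} (hg : ∀ w ∈ v.fiber F', w.adicValuation g ≤ 1)
    (c : K) : (red v (chi F g)).eval c = val v (Algebra.norm F (algebraMap K F' c - g)) := by
  rw [← val_eval v (adic_coeff_chi v hg), eval_chi, ← IsScalarTower.algebraMap_apply]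

/-- the roots of the reduced characteristic polynomial are values of `g`. -/
theorem exists_val_eq_of_root (v : Place K F) {g : F'}
    (hg : ∀ w ∈ v.fiber F', w.adicValuation g ≤ 1) {c : K}
    (hc : (red v (chi F g)).eval c = 0) : ∃ w ∈ v.fiber F', val w g = c := by
  by_contra hne
  push Not at hne
  rw [eval_red_chi v hg] at hc
  refine val_ne_zero_of_adic_eq_one v (adic_norm_eq_one v ?_) hc
  intro w hw
  have h1 : w.adicValuation (algebraMap K F' c - g) ≤ 1 :=
    (Valuation.map_sub _ _ _).trans (max_le (w.adicValuation_algebraMap_le_one c) (hg w hw))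
  apply adic_eq_one_of_val_ne_zero w h1
  rw [val_sub w (w.adicValuation_algebraMap_le_one c) (hg w hw), val_algebraMap]
  exact sub_ne_zero.2 (hne w hw).symm

/-- functions with value `1` above `v` have a norm with value `1`. -/
theorem val_norm_of_val_eq_one (v : Place K F) {u : F'}
    (hu : ∀ w ∈ v.fiber F', w.adicValuation (u - 1) < 1) : val v (Algebra.norm F u) = 1 := by
  have hreg : ∀ w ∈ v.fiber F', w.adicValuation (-u) ≤ 1 := by
    intro w hw
    rw [Valuation.map_neg]
    have : u = (u - 1) + 1 := by ring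
    rw [this]
    exact (Valuation.map_add _ _ _).trans (max_le (hu w hw).le (by simp))
  have hval : ∀ w ∈ v.fiber F', val w (-u) = -1 := by
    intro w hw
    apply val_unique
    have : -u - algebraMap K F' (-1) = -(u - 1) := by
      rw [map_neg, map_one]; ring
    rw [this, Valuation.map_neg]
    exact hu w hw
  rw [norm_eq_eval_chi, ← map_zero (algebraMap K F), val_eval v (adic_coeff_chi v hreg),
    (IsAlgClosed.splits _).eval_eq_prod_roots_of_monic (red_chi_monic v _)]
  apply Multiset.prod_eq_one
  intro x hx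
  obtain ⟨a, ha, rfl⟩ := Multiset.mem_map.1 hx
  obtain ⟨w, hw, h⟩ := exists_val_eq_of_root v hreg (isRoot_of_mem_roots ha)
  rw [← h, hval w hw]
  ring


/-- the reduced characteristic polynomial of a function with pairwise distinct values `c w` above
`v` such that `g - c w` is a uniformiser at `w`. -/
theorem red_chi_of_special (v : Place K F) {g : F'} (c : Place K F' → K)
    (hc : Set.InjOn c (v.fiber F' : Set (Place K F')))
    (hg : ∀ w ∈ v.fiber F', w.adicValuation (g - algebraMap K F' (c w)) = exp (-1 : ℤ)) :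
    red v (chi F g) = ∏ w ∈ v.fiber F', (X - C (c w)) ^ (w.ramificationIndex F) := by
  classical
  have hlt : ∀ w ∈ v.fiber F', w.adicValuation (g - algebraMap K F' (c w)) < 1 := by
    intro w hw
    rw [hg w hw, ← exp_zero, exp_lt_exp]
    omega
  have hreg : ∀ w ∈ v.fiber F', w.adicValuation g ≤ 1 := by
    intro w hw
    have : g = (g - algebraMap K F' (c w)) + algebraMap K F' (c w) := by ring
    rw [this]
    exact (Valuation.map_add _ _ _).trans
      (max_le (hlt w hw).le (w.adicValuation_algebraMap_le_one _))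
  have hval : ∀ w ∈ v.fiber F', val w g = c w := fun w hw => val_unique w (hlt w hw)
  set q := red v (chi F g) with hq
  have hqm : q.Monic := red_chi_monic v g
  have hdvd : ∀ w ∈ v.fiber F', (X - C (c w)) ^ (w.ramificationIndex F) ∣ q := by
    intro w hw
    rw [← le_rootMultiplicity_iff hqm.ne_zero]
    obtain ⟨r, hr, hr'⟩ := exists_eq_pow_rootMultiplicity_mul_and_not_dvd q hqm.ne_zero (c w)
    set a := q.rootMultiplicity (c w) with ha
    have h1 := adic_aeval_red_chi v hreg hw
    rw [← hq, hr, map_mul, map_pow, map_sub, aeval_X, aeval_C, map_mul, map_pow, hg w hw] at h1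
    have h2 : w.adicValuation (aeval g r) = 1 := by
      apply adic_eq_one_of_val_ne_zero w (adic_aeval_le_one w (hreg w hw) r)
      rw [val_aeval w (hreg w hw), hval w hw]
      intro h0
      exact hr' (dvd_iff_isRoot.2 h0)
    rw [h2, mul_one, ← exp_nsmul, exp_le_exp] at h1
    simp only [nsmul_eq_mul] at h1
    omega
  have hcop : ((v.fiber F' : Finset (Place K F')) : Set (Place K F')).Pairwise
      (Function.onFun IsCoprime fun w => (X - C (c w)) ^ (w.ramificationIndex F)) := by
    intro w hw w' hw' hne
    apply IsCoprime.pow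
    apply isCoprime_X_sub_C_of_isUnit_sub
    exact (sub_ne_zero.2 fun h => hne (hc hw hw' h)).isUnit
  have hprod := Finset.prod_dvd_of_coprime hcop hdvd
  have hpm : (∏ w ∈ v.fiber F', (X - C (c w)) ^ (w.ramificationIndex F)).Monic :=
    monic_prod_of_monic _ _ fun w _ => (monic_X_sub_C _).pow _
  refine eq_of_monic_of_dvd_of_natDegree_le hpm hqm hprod ?_
  rw [hq, red_chi_natDegree, natDegree_prod_of_monic _ _ fun w _ => (monic_X_sub_C _).pow _,
    ← sum_ram v]
  apply le_of_eq
  refine Finset.sum_congr rfl fun w _ => ?_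
  rw [natDegree_pow, natDegree_X_sub_C, mul_one]

theorem val_norm_of_special (v : Place K F) {g : F'} (c : Place K F' → K)
    (hc : Set.InjOn c (v.fiber F' : Set (Place K F')))
    (hg : ∀ w ∈ v.fiber F', w.adicValuation (g - algebraMap K F' (c w)) = exp (-1 : ℤ)) :
    val v (Algebra.norm F g) = ∏ w ∈ v.fiber F', c w ^ (w.ramificationIndex F) := by
  have hg' : ∀ w ∈ v.fiber F',
      w.adicValuation (-g - algebraMap K F' ((fun w => - c w) w)) = exp (-1 : ℤ) := by
    intro w hw
    have : -g - algebraMap K F' (- c w) = -(g - algebraMap K F' (c w)) := by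
      rw [map_neg]; ring
    rw [this, Valuation.map_neg]
    exact hg w hw
  have hc' : Set.InjOn (fun w => - c w) (v.fiber F' : Set (Place K F')) := by
    intro w hw w' hw' h
    exact hc hw hw' (neg_injective h)
  have hreg : ∀ w ∈ v.fiber F', w.adicValuation (-g) ≤ 1 := by
    intro w hw
    have : -g = (-g - algebraMap K F' (- c w)) + algebraMap K F' (- c w) := by ring
    rw [this]
    refine (Valuation.map_add _ _ _).trans (max_le ?_ (w.adicValuation_algebraMap_le_one _))
    rw [hg' w hw, ← exp_zero, exp_le_exp]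
    omega
  rw [norm_eq_eval_chi, ← map_zero (algebraMap K F), val_eval v (adic_coeff_chi v hreg),
    red_chi_of_special v _ hc' hg', eval_prod]
  refine Finset.prod_congr rfl fun w _ => ?_
  simp

/-- existence of functions with prescribed values, uniformising at each place. -/
theorem exists_special (S : Finset (Place K F')) (c : Place K F' → K) :
    ∃ g : F', ∀ w ∈ S, w.adicValuation (g - algebraMap K F' (c w)) = exp (-1 : ℤ) := by
  choose π hπ using fun w : Place K F' => exists_unif w
  obtain ⟨g, hg⟩ := exists_approx S (fun w => algebraMap K F' (c w) + π w) 2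
  refine ⟨g, fun w hw => ?_⟩
  have h1 : g - algebraMap K F' (c w) = (g - (algebraMap K F' (c w) + π w)) + π w := by ring
  rw [h1, ← hπ w]
  apply Valuation.map_add_eq_of_lt_right
  rw [hπ w]
  refine lt_of_le_of_lt (hg w hw) ?_
  rw [exp_lt_exp]
  omega

/-- a choice of auxiliary values. -/
theorem exists_aux_values {ι : Type*} (S : Finset ι) (d : ι → K) (hd : ∀ i ∈ S, d i ≠ 0) :
    ∃ c : ι → K, (∀ i ∈ S, c i ≠ 0) ∧ Set.InjOn c (S : Set ι) ∧
      Set.InjOn (fun i => c i * d i) (S : Set ι) := by
  classical
  obtain ⟨e⟩ : Nonempty ({i // i ∈ S} ↪ K) :=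
    ⟨((Fintype.equivFin {i // i ∈ S}).toEmbedding.trans Fin.valEmbedding).trans
      (Infinite.natEmbedding K)⟩
  let ι' : ι → K := fun i => if h : i ∈ S then e ⟨i, h⟩ else 0
  have hι : Set.InjOn ι' (S : Set ι) := by
    intro i hi j hj h
    have hi1 : i ∈ S := hi
    have hj1 : j ∈ S := hj
    simp only [ι', hi1, hj1, dif_pos] at h
    exact congrArg Subtype.val (e.injective h)
  let bad : Finset K := (S.image fun i => - ι' i) ∪
    ((S ×ˢ S).image fun ij => (ι' ij.2 * d ij.2 - ι' ij.1 * d ij.1) / (d ij.1 - d ij.2))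
  obtain ⟨z, hz⟩ := Infinite.exists_notMem_finset bad
  rw [Finset.mem_union, not_or] at hz
  refine ⟨fun i => ι' i + z, ?_, ?_, ?_⟩
  · intro i hi h0
    apply hz.1
    rw [Finset.mem_image]
    exact ⟨i, hi, by linear_combination -h0⟩
  · intro i hi j hj h
    exact hι hi hj (add_right_cancel h)
  · intro i hi j hj h
    have h : (ι' i + z) * d i = (ι' j + z) * d j := h
    by_cases hdd : d i = d j
    · rw [hdd] at h
      exact hι hi hj (add_right_cancel (mul_right_cancel₀ (hd j hj) h))
    · exfalso
      apply hz.2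
      rw [Finset.mem_image]
      refine ⟨(i, j), Finset.mem_product.2 ⟨hi, hj⟩, ?_⟩
      have h3 : d i - d j ≠ 0 := sub_ne_zero.2 hdd
      show (ι' j * d j - ι' i * d i) / (d i - d j) = z
      rw [div_eq_iff h3]
      linear_combination -h

end Ext

end VN

variable {K F F' : Type*} [Field K] [Field F] [Field F'] [Algebra K F] [Algebra K F']
  [Algebra F F'] [IsScalarTower K F F'] [IsAlgClosed K] [CharZero K] [IsFF K F] [IsFF K F']
  [FiniteDimensional F F']

theorem val_norm (v : Place K F) {f : F'} (hf0 : f ≠ 0) (hf : ∀ w ∈ v.fiber F', w.ord f = 0) :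
    val v (Algebra.norm F f) = ∏ w ∈ v.fiber F', val w f ^ (w.ramificationIndex F) := by
  have hf1 : ∀ w ∈ v.fiber F', w.adicValuation f = 1 :=
    fun w hw => (VN.adic_eq_one_iff_ord w hf0).2 (hf w hw)
  have hd : ∀ w ∈ v.fiber F', val w f ≠ 0 :=
    fun w hw => VN.val_ne_zero_of_adic_eq_one w (hf1 w hw)
  obtain ⟨c, hc0, hc, hcd⟩ := VN.exists_aux_values (v.fiber F') (fun w => val w f) hd
  obtain ⟨g, hg⟩ := VN.exists_special (v.fiber F') c
  obtain ⟨h, hh⟩ := VN.exists_special (v.fiber F') (fun w => c w * val w f)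
  have key : ∀ (c' : Place K F' → K) (x : F'), (∀ w ∈ v.fiber F', c' w ≠ 0) →
      (∀ w ∈ v.fiber F', w.adicValuation (x - algebraMap K F' (c' w)) = exp (-1 : ℤ)) →
      ∀ w ∈ v.fiber F', w.adicValuation x = 1 ∧ val w x = c' w := by
    intro c' x hc' hx w hw
    have hlt : w.adicValuation (x - algebraMap K F' (c' w)) < 1 := by
      rw [hx w hw, ← exp_zero, exp_lt_exp]
      omega
    have hv : val w x = c' w := val_unique w hlt
    refine ⟨?_, hv⟩
    apply VN.adic_eq_one_of_val_ne_zero w _ (by rw [hv]; exact hc' w hw)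
    have : x = (x - algebraMap K F' (c' w)) + algebraMap K F' (c' w) := by ring
    rw [this]
    exact (Valuation.map_add _ _ _).trans
      (max_le hlt.le (w.adicValuation_algebraMap_le_one _))
  have hg1 := key c g hc0 hg
  have hh1 := key _ h (fun w hw => mul_ne_zero (hc0 w hw) (hd w hw)) hh
  obtain ⟨y, hy⟩ := IsFF.exists_param (K := K) (F := F)
  obtain ⟨w0, hw0⟩ := GAL.FFExt.fiber_nonempty (F' := F') hy v
  have hh0 : h ≠ 0 := by
    rintro rfl
    simpa using (hh1 w0 hw0).1
  -- the quotient
  have hu : ∀ w ∈ v.fiber F', w.adicValuation (f * g / h - 1) < 1 := by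
    intro w hw
    have h1 : w.adicValuation (f * g / h) = 1 := by
      rw [map_div₀, map_mul, hf1 w hw, (hg1 w hw).1, (hh1 w hw).1]
      simp
    have h2 : val w (f * g / h) = 1 := by
      rw [div_eq_mul_inv, val_mul w (by rw [map_mul, hf1 w hw, (hg1 w hw).1]; simp)
        (by rw [map_inv₀, (hh1 w hw).1]; simp), val_mul w (hf1 w hw).le (hg1 w hw).1.le,
        val_inv w (hh1 w hw).1, (hg1 w hw).2, (hh1 w hw).2]
      have := hc0 w hw
      have := hd w hw
      field_simp
    have h3 := val_spec w h1.le
    rwa [h2, map_one] at h3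
  have hN : Algebra.norm F f * Algebra.norm F g = Algebra.norm F (f * g / h) * Algebra.norm F h := by
    rw [← map_mul, ← map_mul, div_mul_cancel₀ _ hh0]
  have hNf := VN.adic_norm_eq_one v hf1
  have hNg := VN.adic_norm_eq_one v fun w hw => (hg1 w hw).1
  have hNh := VN.adic_norm_eq_one v fun w hw => (hh1 w hw).1
  have hNu : v.adicValuation (Algebra.norm F (f * g / h)) = 1 := by
    apply VN.adic_norm_eq_one v
    intro w hw
    rw [map_div₀, map_mul, hf1 w hw, (hg1 w hw).1, (hh1 w hw).1]
    simp
  have h4 := congrArg (val v) hN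
  rw [val_mul v hNf.le hNg.le, val_mul v hNu.le hNh.le, VN.val_norm_of_val_eq_one v hu, one_mul,
    VN.val_norm_of_special v c hc hg, VN.val_norm_of_special v _ hcd hh] at h4
  simp only [mul_pow, Finset.prod_mul_distrib] at h4
  have h5 : ∏ w ∈ v.fiber F', c w ^ (w.ramificationIndex F) ≠ 0 :=
    Finset.prod_ne_zero_iff.2 fun w hw => pow_ne_zero _ (hc0 w hw)
  rw [mul_comm] at h4
  exact mul_left_cancel₀ h5 h4

end Fermat.Agent.S19
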